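import Fermat.Agent.Corollaries.PGT.Exist

/-!
# The narrow ideal classes of order two of a quadratic field

`ramI p` is the prime ideal with square `(p)`, `p` a prime dividing the discriminant.
Every narrow ideal class `c` with `c² = 1` is the class of a product of ideals `ramI p`.
-/

set_option autoImplicit false

noncomputable section

namespace Fermat.Agent.Cor.PGT

open NumberField
open Fermat.Agent.Cor.Diff (totPos NarrowClassGroup nmk nmk_surjective ncl0 ncl0_eq_one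
  nmk_eq_one_iff)
open scoped nonZeroDivisors

variable {K : Type} [Field K] [NumberField K]

theorem not_unram_iff {p : ℕ} (hp : p.Prime) {P : Ideal (𝓞 K)} (hP : P.IsPrime)
    (hpP : (p : 𝓞 K) ∈ P) :
    ¬ Algebra.IsUnramifiedAt ℤ P ↔ Ideal.span {(p : 𝓞 K)} ≤ P ^ 2 := by
  have hpZ := Nat.prime_iff_prime_int.mp hp
  have hl : P.LiesOver (Ideal.span {(p : ℤ)}) :=
    (Ideal.liesOver_span_iff hP.ne_top hpZ).mpr (by rw [map_natCast]; exact hpP)
  have h3 : Ideal.span {(p : ℤ)} ≠ ⊥ := by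
    rw [Ne, Ideal.span_singleton_eq_bot]
    exact hpZ.ne_zero
  have hmap : (Ideal.span {(p : ℤ)}).map (algebraMap ℤ (𝓞 K)) = Ideal.span {(p : 𝓞 K)} := by
    rw [Ideal.map_span, Set.image_singleton, map_natCast]
  have h1 : (Ideal.span {(p : ℤ)}).ramificationIdx' P = 1 ↔ Algebra.IsUnramifiedAt ℤ P := by
    rw [Ideal.ramificationIdx'_eq_ramificationIdx _ P h3, Ideal.ramificationIdx_eq_one_iff]
  rw [← h1, ← hmap]
  refine Ideal.ramificationIdx'_ne_one_iff ?_
  rw [hmap, Ideal.span_singleton_le_iff_mem]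
  exact hpP

omit [NumberField K] in
theorem exists_prime_mem {P : Ideal (𝓞 K)} (hP : P.IsPrime) {n : ℕ} (hn : n ≠ 0)
    (h : (n : 𝓞 K) ∈ P) : ∃ p : ℕ, p.Prime ∧ (p : 𝓞 K) ∈ P := by
  induction n using Nat.strong_induction_on with
  | _ n ih =>
  by_cases h1 : n = 1
  · rw [h1, Nat.cast_one] at h
    exact absurd ((Ideal.eq_top_iff_one P).mpr h) hP.ne_top
  · obtain ⟨m, hm⟩ := Nat.minFac_dvd n
    have hp := Nat.minFac_prime h1
    have h3 : (n.minFac : 𝓞 K) * (m : 𝓞 K) ∈ P := by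
      rw [← Nat.cast_mul, ← hm]
      exact h
    rcases hP.mem_or_mem h3 with h4 | h4
    · exact ⟨_, hp, h4⟩
    · have hm0 : m ≠ 0 := by
        rintro rfl
        exact hn (by rw [hm, mul_zero])
      refine ih m ?_ hm0 h4
      rw [hm]
      exact lt_mul_of_one_lt_left (Nat.pos_of_ne_zero hm0) hp.one_lt

theorem eq_of_le_of_absNorm {I J : Ideal (𝓞 K)} (h : I ≤ J) (hI : I ≠ ⊥)
    (hn : Ideal.absNorm I = Ideal.absNorm J) : I = J := by
  obtain ⟨C, rfl⟩ := Ideal.dvd_iff_le.mpr h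
  rw [map_mul] at hn
  have hJ : Ideal.absNorm J ≠ 0 := by
    rw [Ne, Ideal.absNorm_eq_zero_iff]
    rintro rfl
    exact hI (by rw [Ideal.bot_mul])
  have h1 : Ideal.absNorm J * Ideal.absNorm C = Ideal.absNorm J * 1 := by rw [hn, mul_one]
  rw [Ideal.absNorm_eq_one_iff.mp (Nat.eq_of_mul_eq_mul_left (Nat.pos_of_ne_zero hJ) h1),
    Ideal.mul_top]

section

variable (h2 : Module.finrank ℚ K = 2)

include h2

theorem exists_ram_prime {p : ℕ} (hp : p.Prime) (hd : (p : ℤ) ∣ discr K) :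
    ∃ P : Ideal (𝓞 K), P.IsPrime ∧ P ^ 2 = Ideal.span {(p : 𝓞 K)} := by
  have h1 := mt (not_dvd_discr_iff_forall_mem K (𝓞 K) (Nat.prime_iff_prime_int.mp hp)).mpr
    (not_not.mpr hd)
  push Not at h1
  obtain ⟨P, hP, hpP, hram⟩ := h1
  rw [Int.cast_natCast] at hpP
  refine ⟨P, hP, ?_⟩
  have h3 := (not_unram_iff hp hP hpP).mp hram
  have hp0 : Ideal.span {(p : 𝓞 K)} ≠ ⊥ := by
    rw [Ne, Ideal.span_singleton_eq_bot, Nat.cast_eq_zero]
    exact hp.ne_zero
  refine (eq_of_le_of_absNorm h3 hp0 ?_).symm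
  have h4 := Ideal.absNorm_dvd_absNorm_of_le h3
  rw [absNorm_natCast h2, map_pow] at h4 ⊢
  have h5 : Ideal.absNorm P ∣ p := (Nat.pow_dvd_pow_iff two_ne_zero).mp h4
  rcases (Nat.dvd_prime hp).mp h5 with h6 | h6
  · exact absurd (Ideal.absNorm_eq_one_iff.mp h6) hP.ne_top
  · rw [h6]

theorem absNorm_of_sq {p : ℕ} {P : Ideal (𝓞 K)} (h : P ^ 2 = Ideal.span {(p : 𝓞 K)}) :
    Ideal.absNorm P = p := by
  have h1 := congrArg Ideal.absNorm h
  rw [map_pow, absNorm_natCast h2] at h1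
  exact Nat.pow_left_injective two_ne_zero h1

omit h2 in
theorem dvd_discr_of_sq {p : ℕ} (hp : p.Prime) {P : Ideal (𝓞 K)} (hP : P.IsPrime)
    (h : P ^ 2 = Ideal.span {(p : 𝓞 K)}) : (p : ℤ) ∣ discr K := by
  by_contra hd
  rw [not_dvd_discr_iff_forall_mem K (𝓞 K) (Nat.prime_iff_prime_int.mp hp)] at hd
  have hpP : (p : 𝓞 K) ∈ P := by
    have h1 : (p : 𝓞 K) ∈ P ^ 2 := by
      rw [h]
      exact Ideal.mem_span_singleton_self _
    exact Ideal.pow_le_self two_ne_zero h1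
  exact (not_unram_iff hp hP hpP).mpr h.ge (hd P hP (by rwa [Int.cast_natCast]))

variable {σ : K ≃ₐ[ℚ] K} (hσ : σ ≠ 1)

include hσ

/-- An ideal which is equal to its conjugate is the product of an integer and of ramified primes. -/
theorem invariant_induction [IsGalois ℚ K] {M : Ideal (𝓞 K) → Prop} (h1 : M ⊤)
    (hn : ∀ (n : ℕ) (B : Ideal (𝓞 K)), n ≠ 0 → B ≠ ⊥ → M B → M (Ideal.span {(n : 𝓞 K)} * B))
    (hr : ∀ (p : ℕ) (P B : Ideal (𝓞 K)), p.Prime → (p : ℤ) ∣ discr K → P.IsPrime →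
      P ^ 2 = Ideal.span {(p : 𝓞 K)} → B ≠ ⊥ → M B → M (P * B))
    (B : Ideal (𝓞 K)) (hB0 : B ≠ ⊥) (hB : B.map (conj σ) = B) : M B := by
  obtain ⟨n, hnB⟩ : ∃ n, Ideal.absNorm B = n := ⟨_, rfl⟩
  induction n using Nat.strong_induction_on generalizing B with
  | _ n ih =>
  by_cases hBt : B = ⊤
  · rw [hBt]
    exact h1
  obtain ⟨P, hPmax, hBP⟩ := Ideal.exists_le_maximal B hBt
  have hP := hPmax.isPrime
  have hP0 : P ≠ ⊥ := by
    rintro rfl
    exact hB0 (le_bot_iff.mp hBP)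
  have hbpos : 0 < Ideal.absNorm B := Nat.pos_of_ne_zero fun h =>
    hB0 (Ideal.absNorm_eq_zero_iff.mp h)
  have hNP1 : 1 < Ideal.absNorm P := by
    have h3 : Ideal.absNorm P ≠ 0 := fun h => hP0 (Ideal.absNorm_eq_zero_iff.mp h)
    have h4 : Ideal.absNorm P ≠ 1 := fun h => hP.ne_top (Ideal.absNorm_eq_one_iff.mp h)
    omega
  -- general reduction
  have key : ∀ I C : Ideal (𝓞 K), B = I * C → I.map (conj σ) = I → 1 < Ideal.absNorm I →
      C ≠ ⊥ ∧ M C := by
    intro I C hIC hI hI1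
    have hI0 : I ≠ ⊥ := by
      rintro rfl
      rw [Ideal.absNorm_bot] at hI1
      omega
    have hC0 : C ≠ ⊥ := by
      rintro rfl
      exact hB0 (by rw [hIC, Ideal.mul_bot])
    have hCinv : C.map (conj σ) = C := by
      have h3 := hB
      rw [hIC, Ideal.map_mul, hI] at h3
      exact mul_left_cancel₀ hI0 h3
    refine ⟨hC0, ih (Ideal.absNorm C) ?_ C hC0 hCinv rfl⟩
    rw [← hnB, hIC, map_mul]
    have hCpos : 0 < Ideal.absNorm C := Nat.pos_of_ne_zero fun h =>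
      hC0 (Ideal.absNorm_eq_zero_iff.mp h)
    exact lt_mul_of_one_lt_left hCpos hI1
  by_cases hPP : P.map (conj σ) = P
  · -- `P² = (N P)`
    have hPsq : P ^ 2 = Ideal.span {(Ideal.absNorm P : 𝓞 K)} := by
      rw [← mul_map_conj h2 hσ, hPP, sq]
    obtain ⟨C, hC⟩ := Ideal.dvd_iff_le.mpr hBP
    obtain ⟨hC0, hMC⟩ := key P C hC hPP hNP1
    obtain ⟨p, hp, hpP⟩ := exists_prime_mem hP (by omega) (Ideal.absNorm_mem P)
    have hq := Ideal.absNorm_dvd_absNorm_of_le ((Ideal.span_singleton_le_iff_mem _).mpr hpP)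
    rw [absNorm_natCast h2] at hq
    obtain ⟨k, hk, hk'⟩ := (Nat.dvd_prime_pow hp).mp hq
    interval_cases k
    · rw [pow_zero] at hk'
      omega
    · rw [pow_one] at hk'
      rw [hk'] at hPsq
      rw [hC]
      exact hr p P C hp (dvd_discr_of_sq hp hP hPsq) hP hPsq hC0 hMC
    · have h5 : Ideal.span {(p : 𝓞 K)} = P := by
        refine eq_of_le_of_absNorm ((Ideal.span_singleton_le_iff_mem _).mpr hpP) ?_ ?_
        · rw [Ne, Ideal.span_singleton_eq_bot, Nat.cast_eq_zero]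
          exact hp.ne_zero
        · rw [absNorm_natCast h2, hk']
      rw [hC, ← h5]
      exact hn p C hp.ne_zero hC0 hMC
  · -- `P P̄ ∣ B`
    have hPb : (P.map (conj σ)).IsPrime := Ideal.map_isPrime_of_equiv (conj σ)
    have h3 : B ≤ P.map (conj σ) := by
      rw [← hB]
      exact Ideal.map_mono hBP
    have hPb0 : P.map (conj σ) ≠ ⊥ := by
      rw [Ne, Ideal.map_eq_bot_iff_of_injective (conj σ).injective]
      exact hP0
    have h4 : B ≤ P * P.map (conj σ) := by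
      rw [Ideal.mul_eq_inf_of_coprime (hPmax.coprime_of_ne (hPb.isMaximal hPb0) (Ne.symm hPP))]
      exact le_inf hBP h3
    rw [mul_map_conj h2 hσ] at h4
    obtain ⟨C, hC⟩ := Ideal.dvd_iff_le.mpr h4
    obtain ⟨hC0, hMC⟩ := key _ C hC (by
      rw [Ideal.map_span, Set.image_singleton, map_natCast]) (by
      rw [absNorm_natCast h2]
      exact Nat.one_lt_pow two_ne_zero hNP1)
    rw [hC]
    exact hn _ C (by omega) hC0 hMC

end

/-! ### Narrow classes -/

section Classes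

variable (h2 : Module.finrank ℚ K = 2) {σ : K ≃ₐ[ℚ] K} (hσ : σ ≠ 1)

/-- **Hilbert 90** for totally positive elements. -/
theorem exists_hilbert90 [IsGalois ℚ K] (h2 : Module.finrank ℚ K = 2) {σ : K ≃ₐ[ℚ] K}
    (hσ : σ ≠ 1) {y : Kˣ} (hy : y ∈ totPos K) (hy1 : Algebra.norm ℚ (y : K) = 1) :
    ∃ z : 𝓞 K, z ≠ 0 ∧ (z : K) = y * σ (z : K) ∧ 0 < Algebra.norm ℚ (z : K) := by
  have hyy : (y : K) * σ (y : K) = 1 := by
    rw [← Fermat.Agent.CFT.Global2.Unr.norm_eq_mul h2 hσ, hy1, map_one]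
  obtain ⟨w, hw⟩ : ∃ w : K, w + y * σ w ≠ 0 := by
    by_contra h
    push Not at h
    have h1 : (y : K) = -1 := by
      have h3 := h 1
      rw [map_one, mul_one] at h3
      linear_combination h3
    apply hσ
    ext w
    have h3 := h w
    rw [h1] at h3
    rw [AlgEquiv.one_apply]
    linear_combination -h3
  set x : K := w + y * σ w with hx
  have hσσ := Fermat.Agent.CFT.Global2.Unr.apply_apply h2 hσ
  have hxy : x = y * σ x := by
    rw [hx, map_add, map_mul, hσσ]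
    linear_combination (-w) * hyy
  obtain ⟨k, hk0, hk⟩ := ((IsFractionRing.isAlgebraic_iff ℤ ℚ K).mpr
    (Algebra.IsAlgebraic.isAlgebraic (R := ℚ) x)).exists_integral_multiple
  obtain ⟨z, hz⟩ : ∃ z : 𝓞 K, (z : K) = (k : K) * x := ⟨⟨k • x, hk⟩, by
    change k • x = _
    rw [zsmul_eq_mul]⟩
  have hz0' : (z : K) ≠ 0 := by
    rw [hz]
    exact mul_ne_zero (Int.cast_ne_zero.mpr hk0) hw
  have hz1 : (z : K) = y * σ (z : K) := by
    rw [hz, map_mul, map_intCast]
    linear_combination (k : K) * hxy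
  refine ⟨z, ?_, hz1, ?_⟩
  · rintro rfl
    exact hz0' (map_zero (algebraMap (𝓞 K) K))
  · by_cases hr : Nonempty (K →+* ℝ)
    · obtain ⟨φ⟩ := hr
      have h3 : φ (σ (z : K)) ≠ 0 := (map_ne_zero φ).mpr ((map_ne_zero σ).mpr hz0')
      have h4 : (0 : ℝ) < φ (z : K) * φ (σ (z : K)) := by
        have h5 : φ (z : K) = φ (y : K) * φ (σ (z : K)) := by
          rw [← map_mul, ← hz1]
        rw [h5, mul_assoc, ← sq]
        have := hy φ
        positivity
      rw [← norm_real h2 hσ φ] at h4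
      exact_mod_cast h4
    · exact norm_pos_of_not_real h2 hσ hr hz0'

include h2 hσ in
/-- A narrow class `c` with `c² = 1` is the class of an ideal which is equal to its conjugate. -/
theorem exists_invariant [IsGalois ℚ K] {c : NarrowClassGroup K} (hc : c ^ 2 = 1) :
    ∃ B : (Ideal (𝓞 K))⁰, (B : Ideal (𝓞 K)).map (conj σ) = B ∧ nu B = c := by
  obtain ⟨A, rfl⟩ := nu_surjective c
  have hA0 : (A : Ideal (𝓞 K)) ≠ ⊥ := nonZeroDivisors.ne_zero A.2
  have ha0 := absNorm_ne_zero A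
  have hAb0 : (A : Ideal (𝓞 K)).map (conj σ) ≠ ⊥ := by
    rw [Ne, Ideal.map_eq_bot_iff_of_injective (conj σ).injective]
    exact hA0
  let Ab : (Ideal (𝓞 K))⁰ := ⟨_, mem_nonZeroDivisors_of_ne_zero hAb0⟩
  have hmul : A * Ab = ⟨_, span_ne_bot' (Nat.cast_ne_zero.mpr ha0)⟩ :=
    Subtype.ext (mul_map_conj h2 hσ _)
  have h1 := congrArg nu hmul
  rw [map_mul, nu_span h2 hσ ⟨_, span_ne_bot' (Nat.cast_ne_zero.mpr ha0)⟩ rfl
    (norm_natCast_pos h2 ha0)] at h1
  have h3 : nmk K (FractionalIdeal.mk0 K A * (FractionalIdeal.mk0 K Ab)⁻¹) = 1 := by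
    rw [map_mul, map_inv]
    change nu A * (nu Ab)⁻¹ = 1
    rw [← eq_inv_of_mul_eq_one_left h1, ← sq]
    exact hc
  obtain ⟨y, hy, h4⟩ := (nmk_eq_one_iff _).mp h3
  have h5 : FractionalIdeal.mk0 K A = toPrincipalIdeal (𝓞 K) K y * FractionalIdeal.mk0 K Ab := by
    rw [h4, inv_mul_cancel_right]
  have hNy : Algebra.norm ℚ (y : K) = 1 := by
    have h6 := congrArg (fun J : (FractionalIdeal (𝓞 K)⁰ K)ˣ => FractionalIdeal.absNorm
      (J : FractionalIdeal (𝓞 K)⁰ K)) h5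
    simp only [Units.val_mul, map_mul, FractionalIdeal.coe_mk0, FractionalIdeal.coeIdeal_absNorm,
      coe_toPrincipalIdeal, FractionalIdeal.absNorm_span_singleton] at h6
    rw [abs_of_pos (norm_pos_of_totPos h2 hσ hy)] at h6
    have h7 : Ideal.absNorm (Ab : Ideal (𝓞 K)) = Ideal.absNorm (A : Ideal (𝓞 K)) :=
      absNorm_map_conj _
    rw [h7] at h6
    have h8 : (Ideal.absNorm (A : Ideal (𝓞 K)) : ℚ) ≠ 0 := Nat.cast_ne_zero.mpr ha0
    exact mul_right_cancel₀ h8 (by rw [one_mul]; exact h6.symm)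
  obtain ⟨z, hz0, hz, hzpos⟩ := exists_hilbert90 h2 hσ hy hNy
  have hcz0 : conj σ z ≠ 0 := by
    rw [Ne, EmbeddingLike.map_eq_zero_iff]
    exact hz0
  have hkey : (A : Ideal (𝓞 K)) * Ideal.span {conj σ z} =
      (A : Ideal (𝓞 K)).map (conj σ) * Ideal.span {z} := by
    apply FractionalIdeal.coeIdeal_injective (K := K)
    change (((A : Ideal (𝓞 K)) * Ideal.span {conj σ z} : Ideal (𝓞 K)) :
      FractionalIdeal (𝓞 K)⁰ K) = (((A : Ideal (𝓞 K)).map (conj σ) * Ideal.span {z} :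
        Ideal (𝓞 K)) : FractionalIdeal (𝓞 K)⁰ K)
    rw [FractionalIdeal.coeIdeal_mul, FractionalIdeal.coeIdeal_mul,
      FractionalIdeal.coeIdeal_span_singleton, FractionalIdeal.coeIdeal_span_singleton]
    have h6 : ((A : Ideal (𝓞 K)) : FractionalIdeal (𝓞 K)⁰ K) =
        FractionalIdeal.spanSingleton (𝓞 K)⁰ (y : K) *
          (((A : Ideal (𝓞 K)).map (conj σ) : Ideal (𝓞 K)) : FractionalIdeal (𝓞 K)⁰ K) := by
      have h7 := congrArg Units.val h5
      rwa [Units.val_mul, FractionalIdeal.coe_mk0, coe_toPrincipalIdeal,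
        FractionalIdeal.coe_mk0] at h7
    rw [h6, mul_comm (FractionalIdeal.spanSingleton (𝓞 K)⁰ (y : K)), mul_assoc,
      FractionalIdeal.spanSingleton_mul_spanSingleton]
    congr 2
    exact hz.symm
  refine ⟨A * ⟨_, span_ne_bot' hcz0⟩, ?_, ?_⟩
  · rw [Submonoid.coe_mul, Ideal.map_mul, Ideal.map_span, Set.image_singleton, conj_conj h2 hσ]
    exact hkey.symm
  · rw [map_mul, nu_span h2 hσ ⟨_, span_ne_bot' hcz0⟩ rfl, mul_one]
    rw [coe_conj, Algebra.norm_eq_of_algEquiv]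
    exact hzpos

open Classical in
/-- the prime ideal with square `(p)`, `p` a prime dividing the discriminant -/
def ramI (p : Ram K) : (Ideal (𝓞 K))⁰ :=
  if h : ∃ P : (Ideal (𝓞 K))⁰, (P : Ideal (𝓞 K)).IsPrime ∧
    (P : Ideal (𝓞 K)) ^ 2 = Ideal.span {((p : ℕ) : 𝓞 K)} then h.choose else 1

include h2 in
theorem ramI_spec (p : Ram K) : (ramI p : Ideal (𝓞 K)).IsPrime ∧
    (ramI p : Ideal (𝓞 K)) ^ 2 = Ideal.span {((p : ℕ) : 𝓞 K)} := by
  have hp := Nat.prime_of_mem_primeFactors p.2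
  have h : ∃ P : (Ideal (𝓞 K))⁰, (P : Ideal (𝓞 K)).IsPrime ∧
      (P : Ideal (𝓞 K)) ^ 2 = Ideal.span {((p : ℕ) : 𝓞 K)} := by
    obtain ⟨P, hP, hP2⟩ := exists_ram_prime h2 hp
      (Int.natCast_dvd.mpr (Nat.dvd_of_mem_primeFactors p.2))
    refine ⟨⟨P, mem_nonZeroDivisors_of_ne_zero ?_⟩, hP, hP2⟩
    rintro rfl
    rw [Ideal.zero_eq_bot, Ideal.bot_pow two_ne_zero, eq_comm, Ideal.span_singleton_eq_bot,
      Nat.cast_eq_zero] at hP2
    exact hp.ne_zero hP2
  rw [ramI, dif_pos h]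
  exact h.choose_spec

include h2 in
theorem absNorm_ramI (p : Ram K) : Ideal.absNorm (ramI p : Ideal (𝓞 K)) = p :=
  absNorm_of_sq h2 (ramI_spec h2 p).2

include h2 in
theorem nu_ramI_sq (p : Ram K) : nu (ramI p) ^ 2 = 1 := by
  have := isGalois_of_two h2
  obtain ⟨σ, hσ⟩ := exists_conj h2
  have hp := Nat.prime_of_mem_primeFactors p.2
  rw [← map_pow]
  refine nu_span h2 hσ _ ?_ (norm_natCast_pos h2 hp.ne_zero)
  rw [SubmonoidClass.coe_pow]
  exact (ramI_spec h2 p).2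

include h2 in
theorem eq_ramI {p : ℕ} {P : Ideal (𝓞 K)} (hp : p.Prime) (hd : (p : ℤ) ∣ discr K)
    (hP : P.IsPrime) (hP2 : P ^ 2 = Ideal.span {(p : 𝓞 K)}) :
    P = ramI ⟨p, mem_ram hp hd⟩ := by
  obtain ⟨hQ, hQ2⟩ := ramI_spec h2 ⟨p, mem_ram hp hd⟩
  have h1 : (ramI ⟨p, mem_ram hp hd⟩ : Ideal (𝓞 K)) ^ 2 ≤ P := by
    rw [hQ2, ← hP2]
    exact Ideal.pow_le_self two_ne_zero
  have h3 := hP.le_of_pow_le h1
  have hQ0 : (ramI ⟨p, mem_ram hp hd⟩ : Ideal (𝓞 K)) ≠ ⊥ := nonZeroDivisors.ne_zero (ramI _).2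
  exact ((hQ.isMaximal hQ0).eq_of_le hP.ne_top h3).symm

/-- the class of the product of the ramified primes with the exponents `e` -/
def phi (h2 : Module.finrank ℚ K = 2) :
    Multiplicative (Ram K → ZMod 2) →* NarrowClassGroup K where
  toFun e := ∏ p : Ram K, nu (ramI p) ^ (e.toAdd p).val
  map_one' := by simp
  map_mul' e f := by
    rw [← Finset.prod_mul_distrib]
    refine Finset.prod_congr rfl fun p _ => ?_
    rw [toAdd_mul, Pi.add_apply, ← pow_add, ZMod.val_add, ← pow_mod_orderOf, eq_comm,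
      ← pow_mod_orderOf, eq_comm]
    congr 1
    exact Nat.mod_mod_of_dvd _ (orderOf_dvd_of_pow_eq_one (nu_ramI_sq h2 p))

theorem phi_apply (e : Multiplicative (Ram K → ZMod 2)) :
    phi h2 e = ∏ p : Ram K, nu (ramI p) ^ (e.toAdd p).val := rfl

theorem nu_ramI_mem (p : Ram K) : nu (ramI p) ∈ (phi h2).range := by
  classical
  refine ⟨Multiplicative.ofAdd (Pi.single p 1), ?_⟩
  rw [phi_apply, Finset.prod_eq_single p]
  · rw [toAdd_ofAdd, Pi.single_eq_same, ZMod.val_one, pow_one]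
  · intro q _ hq
    rw [toAdd_ofAdd, Pi.single_eq_of_ne hq, ZMod.val_zero, pow_zero]
  · intro h
    exact absurd (Finset.mem_univ p) h

/-- **Gauss**: the narrow classes `c` with `c² = 1` are the classes of the products of ramified
primes. -/
theorem range_phi : (phi h2).range = (powMonoidHom 2 : NarrowClassGroup K →* _).ker := by
  have := isGalois_of_two h2
  obtain ⟨σ, hσ⟩ := exists_conj h2
  apply le_antisymm
  · rintro _ ⟨e, rfl⟩
    rw [MonoidHom.mem_ker, powMonoidHom_apply, phi_apply, ← Finset.prod_pow]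
    refine Finset.prod_eq_one fun p _ => ?_
    rw [← pow_mul, mul_comm, pow_mul, nu_ramI_sq h2, one_pow]
  · intro c hc
    obtain ⟨B, hB, rfl⟩ := exists_invariant h2 hσ hc
    have hmain := invariant_induction h2 hσ
      (M := fun B => ∀ hB : B ∈ (Ideal (𝓞 K))⁰, nu ⟨B, hB⟩ ∈ (phi h2).range)
      (fun hB => by
        have h3 : (⟨⊤, hB⟩ : (Ideal (𝓞 K))⁰) = 1 := Subtype.ext Ideal.one_eq_top.symm
        rw [h3, map_one]
        exact one_mem _)
      (fun n B hn hB0 hM hB => by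
        have h3 : (⟨_, hB⟩ : (Ideal (𝓞 K))⁰) =
            ⟨_, span_ne_bot' (Nat.cast_ne_zero.mpr hn)⟩ *
              ⟨B, mem_nonZeroDivisors_of_ne_zero hB0⟩ := Subtype.ext rfl
        rw [h3, map_mul, nu_span h2 hσ ⟨_, span_ne_bot' (Nat.cast_ne_zero.mpr hn)⟩ rfl
          (norm_natCast_pos h2 hn), one_mul]
        exact hM _)
      (fun p P B hp hd hP hP2 hB0 hM hB => by
        have h4 := eq_ramI h2 hp hd hP hP2
        have h3 : (⟨_, hB⟩ : (Ideal (𝓞 K))⁰) = ramI ⟨p, mem_ram hp hd⟩ *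
              ⟨B, mem_nonZeroDivisors_of_ne_zero hB0⟩ :=
          Subtype.ext (congrArg (· * B) h4)
        rw [h3, map_mul]
        exact mul_mem (nu_ramI_mem h2 _) (hM _))
      B (nonZeroDivisors.ne_zero B.2) hB
    exact hmain B.2

/-- ... every such class in exactly two ways. -/
theorem card_ker_phi : Nat.card (phi h2).ker = 2 := by
  have h3 := Ambi.card_narrow_mul_two h2
  have h4 : Nat.card (phi h2).range = Nat.card {c : NarrowClassGroup K // c ^ 2 = 1} := by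
    rw [range_phi]
    rfl
  have h5 := Subgroup.card_mul_index (phi h2).ker
  rw [Subgroup.index_ker, h4] at h5
  have h8 : Nat.card (Multiplicative (Ram K → ZMod 2)) =
      2 ^ (discr K).natAbs.primeFactors.card := by
    rw [Nat.card_congr Multiplicative.toAdd, Nat.card_eq_fintype_card, Fintype.card_fun,
      Fintype.card_coe, ZMod.card]
  rw [h8, ← h3, mul_comm] at h5
  have h9 : 0 < Nat.card {c : NarrowClassGroup K // c ^ 2 = 1} := by
    rcases Nat.eq_zero_or_pos (Nat.card {c : NarrowClassGroup K // c ^ 2 = 1}) with h | h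
    · rw [h, zero_mul] at h3
      exact absurd h3.symm (pow_ne_zero _ two_ne_zero)
    · exact h
  exact Nat.eq_of_mul_eq_mul_left h9 h5

end Classes

end Fermat.Agent.Cor.PGT
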