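import Fermat.Agent.CFT.Global2.Unramified
import Mathlib.RingTheory.Ideal.Norm.RelNorm

/-!
# Ideals of a quadratic field and their conjugates
-/

set_option autoImplicit false

noncomputable section

namespace Fermat.Agent.Cor.PGT

open NumberField

variable {K : Type} [Field K] [NumberField K]

/-- the conjugation of the ring of integers -/
def conj (σ : K ≃ₐ[ℚ] K) : 𝓞 K ≃ₐ[ℤ] 𝓞 K :=
  (RingOfIntegers.mapRingEquiv σ.toRingEquiv).toIntAlgEquiv

theorem coe_conj (σ : K ≃ₐ[ℚ] K) (x : 𝓞 K) : ((conj σ x : 𝓞 K) : K) = σ (x : K) := rfl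

section

variable [IsGalois ℚ K] (h2 : Module.finrank ℚ K = 2) {σ : K ≃ₐ[ℚ] K} (hσ : σ ≠ 1)

include h2 hσ

theorem conj_conj (x : 𝓞 K) : conj σ (conj σ x) = x := by
  apply RingOfIntegers.ext
  rw [coe_conj, coe_conj]
  exact Fermat.Agent.CFT.Global2.Unr.apply_apply h2 hσ (x : K)

theorem norm_int_eq (x : 𝓞 K) : ((Algebra.norm ℤ x : ℤ) : 𝓞 K) = x * conj σ x := by
  apply RingOfIntegers.ext
  change (((Algebra.norm ℤ x : ℤ) : 𝓞 K) : K) = (x : K) * σ (x : K)
  have h := Fermat.Agent.CFT.Global2.Unr.norm_eq_mul h2 hσ (x : K)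
  rw [← Algebra.coe_norm_int] at h
  simpa using h

omit [IsGalois ℚ K] h2 hσ in
theorem absNorm_map_conj (I : Ideal (𝓞 K)) : Ideal.absNorm (I.map (conj σ)) = Ideal.absNorm I := by
  have h := Ideal.relNorm_map_algEquiv (R := ℤ) (conj σ) I
  have h1 := congrArg Ideal.absNorm h
  rwa [Ideal.absNorm_relNorm, Ideal.absNorm_relNorm] at h1

omit [IsGalois ℚ K] hσ in
theorem absNorm_natCast (n : ℕ) : Ideal.absNorm (Ideal.span {(n : 𝓞 K)}) = n ^ 2 := by
  rw [Ideal.absNorm_span_singleton]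
  have h : Algebra.norm ℤ (algebraMap ℤ (𝓞 K) (n : ℤ)) = (n : ℤ) ^ 2 := by
    rw [Algebra.norm_algebraMap, RingOfIntegers.rank, h2]
  rw [map_natCast] at h
  rw [h]
  simp

theorem span_absNorm_le (I : Ideal (𝓞 K)) :
    Ideal.span {(Ideal.absNorm I : 𝓞 K)} ≤ I * I.map (conj σ) := by
  have h := Ideal.map_relNorm ℤ I (algebraMap ℤ (𝓞 K))
  rw [Ideal.relNorm_int, Ideal.map_span, Set.image_singleton, map_natCast] at h
  rw [h, Ideal.span_le]
  rintro _ ⟨x, hx, rfl⟩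
  rw [SetLike.mem_coe, Function.comp_apply, Algebra.intNorm_eq_norm]
  change ((Algebra.norm ℤ x : ℤ) : 𝓞 K) ∈ _
  rw [norm_int_eq h2 hσ]
  exact Ideal.mul_mem_mul hx (Ideal.mem_map_of_mem _ hx)

theorem mul_map_conj (I : Ideal (𝓞 K)) :
    I * I.map (conj σ) = Ideal.span {(Ideal.absNorm I : 𝓞 K)} := by
  rcases eq_or_ne I ⊥ with rfl | h0
  · simp
  obtain ⟨C, hC⟩ := Ideal.dvd_iff_le.mpr (span_absNorm_le h2 hσ I)
  have h1 := congrArg Ideal.absNorm hC
  rw [absNorm_natCast h2, map_mul, map_mul, absNorm_map_conj, ← sq] at h1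
  have h3 : Ideal.absNorm I ≠ 0 := by
    rw [Ne, Ideal.absNorm_eq_zero_iff]
    exact h0
  have h4 : Ideal.absNorm C = 1 := by
    have h5 : Ideal.absNorm I ^ 2 * 1 = Ideal.absNorm I ^ 2 * Ideal.absNorm C := by
      rw [mul_one]; exact h1
    exact (Nat.eq_of_mul_eq_mul_left (pow_pos (Nat.pos_of_ne_zero h3) 2) h5).symm
  rw [hC, Ideal.absNorm_eq_one_iff.mp h4, Ideal.mul_top]

theorem map_conj_map_conj (I : Ideal (𝓞 K)) : (I.map (conj σ)).map (conj σ) = I := by
  apply le_antisymm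
  · rw [Ideal.map_le_iff_le_comap, Ideal.map_le_iff_le_comap]
    intro x hx
    rw [Ideal.mem_comap, Ideal.mem_comap, conj_conj h2 hσ]
    exact hx
  · intro x hx
    rw [← conj_conj h2 hσ x]
    exact Ideal.mem_map_of_mem _ (Ideal.mem_map_of_mem _ hx)

/-- **Gauss**: if the norm of the ideal `𝔞` is the norm of an integer `z`, then `𝔞` is the square of
an ideal, up to principal ideals whose generators have positive norm. -/
theorem sq_of_norm (A : Ideal (𝓞 K)) (z : 𝓞 K) (hz : z * conj σ z = (Ideal.absNorm A : 𝓞 K)) :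
    A * Ideal.span {(Ideal.absNorm (A ⊔ Ideal.span {z}) : 𝓞 K)} =
      Ideal.span {conj σ z} * (A ⊔ Ideal.span {z}) ^ 2 := by
  have h1 : A * (A ⊔ Ideal.span {z}).map (conj σ) =
      Ideal.span {conj σ z} * (A ⊔ Ideal.span {z}) := by
    rw [Ideal.map_sup, Ideal.mul_sup, mul_map_conj h2 hσ, Ideal.mul_sup,
      Ideal.map_span, Set.image_singleton, Ideal.span_singleton_mul_span_singleton,
      mul_comm (conj σ z) z, hz, mul_comm A, sup_comm]
  rw [← mul_map_conj h2 hσ, ← mul_assoc, mul_comm A, mul_assoc, h1]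
  ring

end

end Fermat.Agent.Cor.PGT
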