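import Fermat.Agent.Corollaries.PGT.Local
import Fermat.Agent.Corollaries.HM.Hilb.Legendre

/-!
# The genus characters

`K = ℚ(√m)`, `m` an integer. The narrow class of an ideal `𝔞` is a square if and only if the Hilbert
symbols `(m, N𝔞)_p` at the primes `p` dividing `2m` are trivial.
-/

set_option autoImplicit false

noncomputable section

namespace Fermat.Agent.Cor.PGT

open NumberField
open Fermat.Agent.Cor.Hilb
open scoped nonZeroDivisors

theorem value_iff_sol {E : Type*} [Field E] [CharZero E] {a b : E} (ha : a ≠ 0) :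
    (∃ u v : E, u ^ 2 - a * v ^ 2 = b) ↔ Sol a b := by
  constructor
  · rintro ⟨u, v, h⟩
    exact ⟨v, 1, u, fun h => one_ne_zero h.2.1, by rw [← h]; ring⟩
  · rintro ⟨x, y, z, h0, h⟩
    by_cases hy : y = 0
    · rw [hy] at h
      have hx : x ≠ 0 := by
        intro hx
        rw [hx] at h
        exact h0 ⟨hx, hy, by simpa using h⟩
      have hz : z ≠ 0 := by
        intro hz
        rw [hz] at h
        have : a * x ^ 2 = 0 := by linear_combination -h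
        rcases mul_eq_zero.mp this with h1 | h1
        · exact ha h1
        · exact hx (pow_eq_zero_iff two_ne_zero |>.mp h1)
      refine ⟨(b + 1) / 2, (b - 1) / 2 * (x / z), ?_⟩
      have h2 : a * (x / z) ^ 2 = 1 := by
        field_simp
        linear_combination -h
      rw [mul_pow, mul_left_comm, h2]
      ring
    · refine ⟨z / y, x / y, ?_⟩
      field_simp
      linear_combination h

theorem hilb_eq_one_iff_value {E : Type*} [Field E] [CharZero E] {a b : E} (ha : a ≠ 0) :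
    hilb a b = 1 ↔ ∃ u v : E, u ^ 2 - a * v ^ 2 = b := by
  rw [hilb_eq_one_iff, value_iff_sol ha]

theorem hilb_int_unit {p : ℕ} [hp : Fact p.Prime] (hp2 : p ≠ 2) {m c : ℤ} (hm : ¬ (p : ℤ) ∣ m)
    (hc : ¬ (p : ℤ) ∣ c) : hilb (m : ℚ_[p]) (c : ℚ_[p]) = 1 := by
  have h : ∀ k : ℤ, ¬ (p : ℤ) ∣ k → ∃ u : ℤ_[p]ˣ, (u : ℤ_[p]) = (k : ℤ_[p]) := by
    intro k hk
    have h1 : ‖(k : ℤ_[p])‖ = 1 := by
      have h2 := (PadicInt.norm_int_lt_one_iff_dvd (p := p) k).not.mpr hk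
      exact le_antisymm (PadicInt.norm_le_one _) (not_lt.mp h2)
    obtain ⟨u, hu⟩ := PadicInt.isUnit_iff.mpr h1
    exact ⟨u, hu⟩
  obtain ⟨u, hu⟩ := h m hm
  obtain ⟨w, hw⟩ := h c hc
  have h1 := hs_units_odd hp2 u w
  rw [hs_apply, uu_val, uu_val, hu, hw] at h1
  simpa using h1

variable {K : Type} [Field K] [NumberField K]

theorem not_dvd_absNorm {p : ℕ} [hp : Fact p.Prime] {C : Ideal (𝓞 K)} (hC : C ≠ ⊥)
    (h : C ⊔ Ideal.span {(p : 𝓞 K)} = ⊤) : ¬ p ∣ Ideal.absNorm C := by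
  intro hd
  rw [Ideal.absNorm_apply, Submodule.cardQuot_apply] at hd
  have hfin : Finite (𝓞 K ⧸ C) := Ideal.finiteQuotientOfFreeOfNeBot C hC
  obtain ⟨g, hg⟩ := exists_prime_addOrderOf_dvd_card' p hd
  have h1 : (1 : 𝓞 K) ∈ C ⊔ Ideal.span {(p : 𝓞 K)} := by rw [h]; trivial
  obtain ⟨c, hc, d, hd', hcd⟩ := Submodule.mem_sup.mp h1
  obtain ⟨e, rfl⟩ := Ideal.mem_span_singleton'.mp hd'
  have h2 : p • g = 0 := by rw [← hg]; exact addOrderOf_nsmul_eq_zero g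
  have h3 : g = 0 := by
    have h4 : (Ideal.Quotient.mk C c + Ideal.Quotient.mk C (e * (p : 𝓞 K))) = 1 := by
      rw [← map_add, hcd, map_one]
    rw [Ideal.Quotient.eq_zero_iff_mem.mpr hc, zero_add, map_mul, map_natCast] at h4
    calc g = 1 * g := (one_mul g).symm
      _ = Ideal.Quotient.mk C e * (p • g) := by rw [← h4, nsmul_eq_mul, mul_assoc]
      _ = 0 := by rw [h2, mul_zero]
  rw [h3, addOrderOf_zero] at hg
  exact hp.out.one_lt.ne hg

/-- Up to an element, an ideal is prime to `p`. -/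
theorem exists_rep (hfr : Module.finrank ℚ K = 2) (p : ℕ) [hp : Fact p.Prime]
    (A : (Ideal (𝓞 K))⁰) :
    ∃ (x : 𝓞 K) (c : ℤ), ¬ (p : ℤ) ∣ c ∧
      Algebra.norm ℤ x = Ideal.absNorm (A : Ideal (𝓞 K)) * c := by
  have hA : (A : Ideal (𝓞 K)) ≠ ⊥ := nonZeroDivisors.ne_zero A.2
  have hp0 : Ideal.span {(p : 𝓞 K)} ≠ ⊥ := by
    rw [Ne, Ideal.span_singleton_eq_bot, Nat.cast_eq_zero]
    exact hp.out.ne_zero
  obtain ⟨x, hx⟩ := IsDedekindDomain.exists_sup_span_eq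
    (I := (A : Ideal (𝓞 K)) * Ideal.span {(p : 𝓞 K)}) (J := A) Ideal.mul_le_left
    (mul_ne_zero hA hp0)
  have hxA : Ideal.span {x} ≤ (A : Ideal (𝓞 K)) := by
    conv_rhs => rw [← hx]
    exact le_sup_right
  obtain ⟨C, hC⟩ := Ideal.dvd_iff_le.mpr hxA
  have hcop : C ⊔ Ideal.span {(p : 𝓞 K)} = ⊤ := by
    rw [hC, ← Ideal.mul_sup] at hx
    have h1 : (A : Ideal (𝓞 K)) * (Ideal.span {(p : 𝓞 K)} ⊔ C) = A * ⊤ := by
      rw [hx, Ideal.mul_top]
    rw [sup_comm]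
    exact mul_left_cancel₀ hA h1
  have hC0 : C ≠ ⊥ := by
    rintro rfl
    rw [bot_sup_eq] at hcop
    have h4 := absNorm_natCast hfr p
    rw [hcop, Ideal.absNorm_top] at h4
    have h5 : 1 < p ^ 2 := Nat.one_lt_pow two_ne_zero hp.out.one_lt
    omega
  have hnc := not_dvd_absNorm hC0 hcop
  have h2 := congrArg Ideal.absNorm hC
  rw [Ideal.absNorm_span_singleton, map_mul] at h2
  rcases Int.natAbs_eq (Algebra.norm ℤ x) with h3 | h3
  · refine ⟨x, Ideal.absNorm C, fun h => hnc (Int.natCast_dvd_natCast.mp h), ?_⟩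
    rw [h3, h2]
    push_cast
    ring
  · refine ⟨x, -(Ideal.absNorm C : ℤ), fun h => hnc (Int.natCast_dvd_natCast.mp
      ((dvd_neg).mp h)), ?_⟩
    rw [h3, h2]
    push_cast
    ring

/-- The symbol `(m, N𝔞)_p` is trivial at the primes which do not divide `2m`. -/
theorem hilb_absNorm (h2 : Module.finrank ℚ K = 2) {α : K} {m : ℤ}
    (hα : α ^ 2 = (m : K)) (hα' : α ∉ (algebraMap ℚ K).range) (A : (Ideal (𝓞 K))⁰)
    {p : ℕ} [hp : Fact p.Prime] (hpm : ¬ (p : ℤ) ∣ 2 * m) :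
    hilb (m : ℚ_[p]) (Ideal.absNorm (A : Ideal (𝓞 K)) : ℚ_[p]) = 1 := by
  have hp2 : p ≠ 2 := by
    rintro rfl
    exact hpm ⟨m, rfl⟩
  have hpm' : ¬ (p : ℤ) ∣ m := fun h => hpm (h.mul_left 2)
  have hm0 : (m : ℚ_[p]) ≠ 0 := by
    rw [Int.cast_ne_zero]
    rintro rfl
    exact hpm' (dvd_zero _)
  obtain ⟨x, c, hc, hx⟩ := exists_rep h2 p A
  have hc0 : (c : ℚ_[p]) ≠ 0 := by
    rw [Int.cast_ne_zero]
    rintro rfl
    exact hc (dvd_zero _)
  have ha0 : (Ideal.absNorm (A : Ideal (𝓞 K)) : ℚ_[p]) ≠ 0 := by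
    rw [Nat.cast_ne_zero]
    exact fun h =>
      (nonZeroDivisors.ne_zero A.2 : (A : Ideal (𝓞 K)) ≠ ⊥) (Ideal.absNorm_eq_zero_iff.mp h)
  have h3 : hilb (m : ℚ_[p]) ((Ideal.absNorm (A : Ideal (𝓞 K)) : ℚ_[p]) * c) = 1 := by
    rw [hilb_eq_one_iff_value hm0]
    obtain ⟨u, v, huv⟩ := (exists_norm_iff_rat h2 (m := (m : ℚ)) (by rw [hα]; simp) hα'
      (Algebra.norm ℚ (x : K))).mp ⟨_, rfl⟩
    refine ⟨u, v, ?_⟩
    have h4 : (Algebra.norm ℚ (x : K)) = ((Ideal.absNorm (A : Ideal (𝓞 K)) * c : ℤ) : ℚ) := by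
      rw [← hx, Algebra.coe_norm_int]
    rw [h4] at huv
    have h5 := congrArg (fun q : ℚ => (q : ℚ_[p])) huv
    push_cast at h5
    exact h5
  rwa [hilb_padic_mul_right hm0 ha0 hc0, hilb_int_unit hp2 hpm' hc, mul_one] at h3

/-- **Gauss's principal genus theorem**, in terms of the genus characters: `K = ℚ(√m)`, `m` an
integer; the narrow class of the ideal `𝔞` is a square if and only if `(m, N𝔞)_p = 1` for the primes
`p` dividing `2m`. -/
theorem principal_genus_char (h2 : Module.finrank ℚ K = 2) {α : K} {m : ℤ}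
    (hα : α ^ 2 = (m : K)) (hα' : α ∉ (algebraMap ℚ K).range) (A : (Ideal (𝓞 K))⁰) :
    IsSquare (nu A) ↔ ∀ (p : ℕ) [Fact p.Prime], (p : ℤ) ∣ 2 * m →
      hilb (m : ℚ_[p]) (Ideal.absNorm (A : Ideal (𝓞 K)) : ℚ_[p]) = 1 := by
  have hm : m ≠ 0 := by
    rintro rfl
    rw [Int.cast_zero, pow_eq_zero_iff two_ne_zero] at hα
    exact hα' ⟨0, by rw [map_zero, hα]⟩
  rw [principal_genus h2 (m := (m : ℚ)) (by rw [hα]; simp) hα' A]
  constructor
  · intro h p _ _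
    obtain ⟨u, v, huv⟩ := h p
    rw [hilb_eq_one_iff_value (Int.cast_ne_zero.mpr hm)]
    exact ⟨u, v, by rw [← huv, Rat.cast_intCast]⟩
  · intro h p _
    have h3 : hilb (m : ℚ_[p]) (Ideal.absNorm (A : Ideal (𝓞 K)) : ℚ_[p]) = 1 := by
      by_cases hd : (p : ℤ) ∣ 2 * m
      · exact h p hd
      · exact hilb_absNorm h2 hα hα' A hd
    rw [hilb_eq_one_iff_value (Int.cast_ne_zero.mpr hm)] at h3
    obtain ⟨u, v, huv⟩ := h3
    exact ⟨u, v, by rw [← huv, Rat.cast_intCast]⟩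

end Fermat.Agent.Cor.PGT
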