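import Fermat.Agent.Corollaries.PGT.Redei

/-!
# The entries of Rédei's matrix

The entries in the row of an odd prime `q`, in terms of squares modulo `q`; the sum of every column
is zero. The case of two ramified primes: `4` divides the narrow class number if and only if `p` and
`-d / q` are squares modulo `q`. For instance, for a prime `p ≡ 1 mod 4`, the class number of
`ℚ(√-p)` is divisible by `4` if and only if `p ≡ 1 mod 8`.
-/

set_option autoImplicit false

noncomputable section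

namespace Fermat.Agent.Cor.PGT

open NumberField
open Fermat.Agent.Cor.Diff (NarrowClassGroup toClass toClass_surjective ker_toClass_le ncl0
  ncl0_eq_one)
open Fermat.Agent.Cor.Hilb
open scoped nonZeroDivisors

section Local

variable {q : ℕ} [hq : Fact q.Prime]

theorem exists_unit_int {k : ℤ} (hk : ¬ (q : ℤ) ∣ k) :
    ∃ u : ℤ_[q]ˣ, (u : ℤ_[q]) = (k : ℤ_[q]) := by
  have h1 : ‖(k : ℤ_[q])‖ = 1 := by
    have h2 := (PadicInt.norm_int_lt_one_iff_dvd (p := q) k).not.mpr hk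
    exact le_antisymm (PadicInt.norm_le_one _) (not_lt.mp h2)
  obtain ⟨u, hu⟩ := PadicInt.isUnit_iff.mpr h1
  exact ⟨u, hu⟩

/-- `(q, k)_q = 1` if and only if `k` is a square modulo `q`. -/
theorem hilb_prime_iff (hq2 : q ≠ 2) {k : ℤ} (hk : ¬ (q : ℤ) ∣ k) :
    hilb ((q : ℕ) : ℚ_[q]) (k : ℚ_[q]) = 1 ↔ IsSquare (k : ZMod q) := by
  obtain ⟨u, hu⟩ := exists_unit_int hk
  have h1 := hs_pp_unit hq2 u
  rw [hs_apply, uu_val, hu, leg, hu, map_intCast] at h1
  have h3 : hilb ((q : ℕ) : ℚ_[q]) (k : ℚ_[q]) =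
      if IsSquare ((k : ℤ) : ZMod q) then 1 else -1 := by
    rw [← h1]
    simp [pp]
  rw [h3]
  split_ifs with h4
  · exact ⟨fun _ => h4, fun _ => rfl⟩
  · exact ⟨fun h => absurd h (by decide), fun h => absurd h h4⟩

/-- `(q d, k)_q = 1` if and only if `k` is a square modulo `q` (`d` and `k` prime to `q`). -/
theorem hilb_mul_prime_iff (hq2 : q ≠ 2) {d k : ℤ} (hd : ¬ (q : ℤ) ∣ d) (hk : ¬ (q : ℤ) ∣ k) :
    hilb (((q * d : ℤ)) : ℚ_[q]) (k : ℚ_[q]) = 1 ↔ IsSquare (k : ZMod q) := by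
  have h0 : ∀ {n : ℤ}, ¬ (q : ℤ) ∣ n → (n : ℚ_[q]) ≠ 0 := fun {n} hn h =>
    hn (by rw [Int.cast_eq_zero.mp h]; exact dvd_zero _)
  rw [Int.cast_mul, Int.cast_natCast, hilb_padic_mul_left (Nat.cast_ne_zero.mpr hq.out.ne_zero)
    (h0 hd) (h0 hk), hilb_int_unit hq2 hd hk, mul_one, hilb_prime_iff hq2 hk]

/-- `(q d, q)_q = 1` if and only if `-d` is a square modulo `q` (`d` prime to `q`). -/
theorem hilb_mul_prime_self_iff (hq2 : q ≠ 2) {d : ℤ} (hd : ¬ (q : ℤ) ∣ d) :
    hilb (((q * d : ℤ)) : ℚ_[q]) ((q : ℕ) : ℚ_[q]) = 1 ↔ IsSquare ((-d : ℤ) : ZMod q) := by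
  have hq0 : ((q : ℕ) : ℚ_[q]) ≠ 0 := Nat.cast_ne_zero.mpr hq.out.ne_zero
  have hd' : ¬ (q : ℤ) ∣ -d := fun h => hd ((dvd_neg).mp h)
  have hdq : ((-d : ℤ) : ℚ_[q]) ≠ 0 := fun h => hd' (by rw [Int.cast_eq_zero.mp h]; exact dvd_zero _)
  have h1 : (((q * d : ℤ)) : ℚ_[q]) = (-((q : ℕ) : ℚ_[q])) * ((-d : ℤ) : ℚ_[q]) := by
    push_cast
    ring
  rw [h1, hilb_padic_mul_left (neg_ne_zero.mpr hq0) hdq hq0, hilb_comm, hilb_neg_self, one_mul,
    hilb_comm, hilb_prime_iff hq2 hd']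

end Local

variable {K : Type} [Field K] [NumberField K] (h2 : Module.finrank ℚ K = 2)

include h2

theorem exists_cofactor (q : Ram K) (hq2 : (q : ℕ) ≠ 2) :
    ∃ m : ℤ, discr K = (q : ℕ) * m ∧ ¬ ((q : ℕ) : ℤ) ∣ m := by
  obtain ⟨m, hm⟩ := Int.natCast_dvd.mpr (Nat.dvd_of_mem_primeFactors q.2)
  refine ⟨m, hm, ?_⟩
  rintro ⟨n, rfl⟩
  have hq := (Nat.prime_of_mem_primeFactors q.2).two_le
  exact Ambi.not_sq_dvd_discr h2 (q := q) (by omega) ⟨n, hm.trans (by ring)⟩

/-- **The entries of Rédei's matrix**, `q` odd and `p ≠ q`. -/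
theorem redeiMatrix_eq_zero_iff {p q : Ram K} (hq2 : (q : ℕ) ≠ 2) (hpq : p ≠ q) :
    redeiMatrix K q p = 0 ↔ IsSquare ((p : ℕ) : ZMod q) := by
  have hq : Fact (q : ℕ).Prime := ⟨Nat.prime_of_mem_primeFactors q.2⟩
  have hp := Nat.prime_of_mem_primeFactors p.2
  obtain ⟨m, hm, hm'⟩ := exists_cofactor h2 q hq2
  have hpq' : ¬ ((q : ℕ) : ℤ) ∣ ((p : ℕ) : ℤ) := fun h => hpq
    (Subtype.ext ((Nat.prime_dvd_prime_iff_eq hq.out hp).mp (Int.natCast_dvd_natCast.mp h)).symm)
  have h1 := hilb_mul_prime_iff hq2 hm' hpq'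
  rw [← hm, Int.cast_natCast, Int.cast_natCast] at h1
  rw [redeiMatrix, ad_eq_zero_iff, ← h1]
  exact Eq.congr_left (hilbAt_cast q.1 _ _)

/-- **The diagonal entries of Rédei's matrix**, `q` odd. -/
theorem redeiMatrix_self_eq_zero_iff {q : Ram K} (hq2 : (q : ℕ) ≠ 2) :
    redeiMatrix K q q = 0 ↔ IsSquare ((-(discr K / (q : ℕ)) : ℤ) : ZMod q) := by
  have hq : Fact (q : ℕ).Prime := ⟨Nat.prime_of_mem_primeFactors q.2⟩
  obtain ⟨m, hm, hm'⟩ := exists_cofactor h2 q hq2
  have h1 := hilb_mul_prime_self_iff hq2 hm'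
  rw [← hm] at h1
  have h3 : discr K / ((q : ℕ) : ℤ) = m :=
    Int.ediv_eq_of_eq_mul_right (by exact_mod_cast hq.out.ne_zero) hm
  rw [redeiMatrix, ad_eq_zero_iff, h3, ← h1]
  exact Eq.congr_left (hilbAt_cast q.1 _ _)

/-- The sum of every column of Rédei's matrix is zero. -/
theorem sum_redeiMatrix (p : Ram K) : ∑ q, redeiMatrix K q p = 0 := by
  have h1 : ∏ q, genus (ramI p) q = 1 := prod_genus h2 _
  have h3 := congrArg adH h1
  rw [map_prod, map_one] at h3
  have h4 := congrArg Multiplicative.toAdd h3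
  rw [toAdd_prod, toAdd_one] at h4
  rw [← h4]
  exact Finset.sum_congr rfl fun q _ => (genus_ramI h2 p q).symm

omit h2 in
theorem rank_eq_zero_iff' {ι : Type*} [Fintype ι] [DecidableEq ι] {M : Matrix ι ι (ZMod 2)} :
    M.rank = 0 ↔ M = 0 := by
  constructor
  · intro h
    rw [Matrix.rank, Submodule.finrank_eq_zero, LinearMap.range_eq_bot] at h
    ext a b
    have h1 := congrFun (LinearMap.congr_fun h (Pi.single b 1)) a
    rw [Matrix.mulVecLin_apply, Matrix.mulVec_single_one] at h1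
    exact h1
  · rintro rfl
    exact Matrix.rank_zero

/-- **Two ramified primes** `p ≠ q`, `q` odd: the narrow class group has an element of order `4` if and
only if `p` and `-d / q` are squares modulo `q`. -/
theorem exists_orderOf_four_iff_of_two {p q : Ram K} (hpq : p ≠ q) (hall : ∀ r : Ram K, r = p ∨ r = q)
    (hq2 : (q : ℕ) ≠ 2) : (∃ c : NarrowClassGroup K, orderOf c = 4) ↔
      IsSquare ((p : ℕ) : ZMod q) ∧ IsSquare ((-(discr K / (q : ℕ)) : ℤ) : ZMod q) := by
  classical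
  have huniv : (Finset.univ : Finset (Ram K)) = {p, q} := by
    ext r
    simpa using hall r
  have hcard : (discr K).natAbs.primeFactors.card = 2 := by
    rw [← Fintype.card_coe, Fintype.card, huniv, Finset.card_pair hpq]
  rw [exists_orderOf_four_iff h2, hcard, ← redeiMatrix_eq_zero_iff h2 hq2 hpq,
    ← redeiMatrix_self_eq_zero_iff h2 hq2]
  have hcol : ∀ r, redeiMatrix K p r = redeiMatrix K q r := by
    intro r
    have h1 := sum_redeiMatrix h2 r
    rw [huniv, Finset.sum_pair hpq] at h1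
    exact CharTwo.add_eq_zero.mp h1
  have hrank : (redeiMatrix K).rank + 1 < 2 ↔ redeiMatrix K = 0 := by
    rw [← rank_eq_zero_iff']
    omega
  rw [hrank]
  constructor
  · intro h
    rw [h]
    exact ⟨rfl, rfl⟩
  · rintro ⟨h1, h3⟩
    ext a b
    rcases hall a with rfl | rfl <;> rcases hall b with rfl | rfl
    · rw [hcol]; exact h1
    · rw [hcol]; exact h3
    · exact h1
    · exact h3

omit h2 in
/-- In a finite commutative group with two elements of order `≤ 2`, `4` divides the order if and only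
if there is an element of order `4`. -/
theorem four_dvd_card_iff {G : Type*} [CommGroup G] [Finite G]
    (h : Nat.card {c : G // c ^ 2 = 1} = 2) : 4 ∣ Nat.card G ↔ ∃ c : G, orderOf c = 4 := by
  constructor
  · intro h4
    have : Fact (Nat.Prime 2) := ⟨Nat.prime_two⟩
    obtain ⟨P, hP⟩ := Sylow.exists_subgroup_card_pow_prime (G := G) 2 (n := 2) (by simpa using h4)
    by_contra hno
    push Not at hno
    have h5 : ∀ c ∈ P, c ^ 2 = 1 := by
      intro c hc
      have h6 : orderOf c ∣ 4 := by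
        have h7 := Subgroup.orderOf_dvd_natCard P hc
        rw [hP] at h7
        exact h7
      have h8 : orderOf c ∣ 2 ^ 2 := h6
      obtain ⟨k, hk, hk'⟩ := (Nat.dvd_prime_pow Nat.prime_two).mp h8
      interval_cases k
      · rw [pow_zero] at hk'
        rw [orderOf_eq_one_iff.mp hk', one_pow]
      · rw [pow_one] at hk'
        rw [← hk', pow_orderOf_eq_one]
      · exact absurd hk' (hno c)
    have h6 : Nat.card P ≤ Nat.card {c : G // c ^ 2 = 1} :=
      Nat.card_le_card_of_injective (fun c : P => (⟨c.1, h5 c.1 c.2⟩ : {c : G // c ^ 2 = 1}))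
        fun a b hab => Subtype.ext (congrArg (fun x : {c : G // c ^ 2 = 1} => x.1) hab)
    rw [h, hP] at h6
    omega
  · rintro ⟨c, hc⟩
    rw [← hc]
    exact orderOf_dvd_natCard c

/-- **Two ramified primes** `p ≠ q`, `q` odd: `4` divides the narrow class number if and only if `p`
and `-d / q` are squares modulo `q`. -/
theorem four_dvd_iff_of_two {p q : Ram K} (hpq : p ≠ q) (hall : ∀ r : Ram K, r = p ∨ r = q)
    (hq2 : (q : ℕ) ≠ 2) : 4 ∣ Nat.card (NarrowClassGroup K) ↔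
      IsSquare ((p : ℕ) : ZMod q) ∧ IsSquare ((-(discr K / (q : ℕ)) : ℤ) : ZMod q) := by
  classical
  rw [← exists_orderOf_four_iff_of_two h2 hpq hall hq2]
  refine four_dvd_card_iff ?_
  have huniv : (Finset.univ : Finset (Ram K)) = {p, q} := by
    ext r
    simpa using hall r
  have hcard : (discr K).natAbs.primeFactors.card = 2 := by
    rw [← Fintype.card_coe, Fintype.card, huniv, Finset.card_pair hpq]
  rw [Ambi.card_narrow_sq_eq_one h2, hcard]
  norm_num

/-- For an imaginary quadratic field the narrow class number is the class number. -/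
theorem card_narrow_of_neg (hd : discr K < 0) :
    Nat.card (NarrowClassGroup K) = classNumber K := by
  obtain ⟨α, hα, hα'⟩ := exists_sqrt h2
  have hno : IsEmpty (K →+* ℝ) := ⟨fun φ => by
    have h1 := congrArg φ hα
    rw [map_pow, map_intCast] at h1
    have h3 : ((discr K : ℤ) : ℝ) < 0 := by exact_mod_cast hd
    nlinarith [sq_nonneg (φ α)]⟩
  have hinj : Function.Injective (toClass K) := by
    rw [← MonoidHom.ker_eq_bot_iff, eq_bot_iff]
    refine ker_toClass_le.trans ?_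
    rintro _ ⟨x, rfl⟩
    exact Subgroup.mem_bot.mpr (ncl0_eq_one fun φ => (hno.false φ).elim)
  rw [Nat.card_congr (Equiv.ofBijective _ ⟨hinj, toClass_surjective⟩), Nat.card_eq_fintype_card]
  rfl

/-! ### Examples -/

theorem four_dvd_iff_of_primeFactors {p q : ℕ} (hpq : p ≠ q)
    (hset : (discr K).natAbs.primeFactors = {p, q}) (hq2 : q ≠ 2) :
    4 ∣ Nat.card (NarrowClassGroup K) ↔
      IsSquare ((p : ℕ) : ZMod q) ∧ IsSquare ((-(discr K / (q : ℕ)) : ℤ) : ZMod q) := by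
  have hp : p ∈ (discr K).natAbs.primeFactors := by rw [hset]; simp
  have hq : q ∈ (discr K).natAbs.primeFactors := by rw [hset]; simp
  refine four_dvd_iff_of_two h2 (p := ⟨p, hp⟩) (q := ⟨q, hq⟩) (fun h => hpq (congrArg Subtype.val h))
    (fun r => ?_) hq2
  have hr : (r : ℕ) ∈ ({p, q} : Finset ℕ) := (Finset.ext_iff.mp hset _).mp r.2
  rw [Finset.mem_insert, Finset.mem_singleton] at hr
  rcases hr with h | h
  · exact Or.inl (Subtype.ext h)
  · exact Or.inr (Subtype.ext h)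

omit h2 in
theorem primeFactors_two_pow_mul {p k : ℕ} (hp : p.Prime) (hk : k ≠ 0) :
    (2 ^ k * p).primeFactors = {2, p} := by
  rw [Nat.primeFactors_mul (pow_ne_zero _ two_ne_zero) hp.ne_zero,
    Nat.primeFactors_prime_pow hk Nat.prime_two, hp.primeFactors]
  rfl

omit h2 in
theorem isSquare_mul_sq_iff {p : ℕ} [hp : Fact p.Prime] {a c : ZMod p} (hc : c ≠ 0) :
    IsSquare (a * c ^ 2) ↔ IsSquare a := by
  constructor
  · rintro ⟨r, hr⟩
    refine ⟨r / c, ?_⟩
    rw [div_mul_div_comm, ← hr, sq, mul_div_cancel_right₀ _ (mul_ne_zero hc hc)]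
  · intro h
    exact h.mul (IsSquare.sq c)

omit h2 in
theorem two_ne_zero_zmod {p : ℕ} [hp : Fact p.Prime] (hp2 : p ≠ 2) : (2 : ZMod p) ≠ 0 := by
  intro h
  have h1 : ((2 : ℕ) : ZMod p) = 0 := by exact_mod_cast h
  rw [ZMod.natCast_eq_zero_iff] at h1
  exact hp2 ((Nat.prime_dvd_prime_iff_eq hp.out Nat.prime_two).mp h1)

/-- **`4 ∣ h(ℚ(√-p))` if and only if `p ≡ 1 mod 8`**, for a prime `p ≡ 1 mod 4`. -/
theorem four_dvd_classNumber_neg_four {p : ℕ} (hp : p.Prime) (h4 : p % 4 = 1)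
    (hd : discr K = -4 * p) : 4 ∣ classNumber K ↔ p % 8 = 1 := by
  have hpf : Fact p.Prime := ⟨hp⟩
  have hp2 : p ≠ 2 := by rintro rfl; omega
  have hneg : discr K < 0 := by
    rw [hd]
    have := hp.pos
    omega
  have hset : (discr K).natAbs.primeFactors = {2, p} := by
    rw [hd, show (-4 * (p : ℤ)).natAbs = 2 ^ 2 * p by omega, primeFactors_two_pow_mul hp two_ne_zero]
  rw [← card_narrow_of_neg h2 hneg, four_dvd_iff_of_primeFactors h2 hp2.symm hset hp2]
  have h3 : -(discr K / ((p : ℕ) : ℤ)) = 4 := by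
    rw [hd, Int.mul_ediv_cancel _ (by exact_mod_cast hp.ne_zero)]
    rfl
  have h5 : IsSquare ((4 : ℤ) : ZMod p) := ⟨2, by push_cast; norm_num⟩
  rw [h3]
  simp only [h5, and_true]
  rw [Nat.cast_ofNat, ZMod.exists_sq_eq_two_iff hp2]
  omega

/-- **`4 ∣ h(ℚ(√-2p))` if and only if `p ≡ ±1 mod 8`**, for an odd prime `p`. -/
theorem four_dvd_classNumber_neg_eight {p : ℕ} (hp : p.Prime) (hp2 : p ≠ 2)
    (hd : discr K = -8 * p) : 4 ∣ classNumber K ↔ p % 8 = 1 ∨ p % 8 = 7 := by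
  have hpf : Fact p.Prime := ⟨hp⟩
  have hneg : discr K < 0 := by
    rw [hd]
    have := hp.pos
    omega
  have hset : (discr K).natAbs.primeFactors = {2, p} := by
    rw [hd, show (-8 * (p : ℤ)).natAbs = 2 ^ 3 * p by omega,
      primeFactors_two_pow_mul hp three_ne_zero]
  rw [← card_narrow_of_neg h2 hneg, four_dvd_iff_of_primeFactors h2 hp2.symm hset hp2]
  have h3 : -(discr K / ((p : ℕ) : ℤ)) = 8 := by
    rw [hd, Int.mul_ediv_cancel _ (by exact_mod_cast hp.ne_zero)]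
    rfl
  have h5 : ((8 : ℤ) : ZMod p) = 2 * 2 ^ 2 := by push_cast; norm_num
  rw [h3, h5, isSquare_mul_sq_iff (two_ne_zero_zmod hp2), Nat.cast_ofNat, and_self,
    ZMod.exists_sq_eq_two_iff hp2]

/-- **`4 ∣ h⁺(ℚ(√(2p)))` if and only if `p ≡ 1 mod 8`**, for an odd prime `p`. -/
theorem four_dvd_narrow_eight {p : ℕ} (hp : p.Prime) (hp2 : p ≠ 2)
    (hd : discr K = 8 * p) : 4 ∣ Nat.card (NarrowClassGroup K) ↔ p % 8 = 1 := by
  have hpf : Fact p.Prime := ⟨hp⟩
  have hset : (discr K).natAbs.primeFactors = {2, p} := by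
    rw [hd, show (8 * (p : ℤ)).natAbs = 2 ^ 3 * p by omega,
      primeFactors_two_pow_mul hp three_ne_zero]
  rw [four_dvd_iff_of_primeFactors h2 hp2.symm hset hp2]
  have h3 : -(discr K / ((p : ℕ) : ℤ)) = -8 := by
    rw [hd, Int.mul_ediv_cancel _ (by exact_mod_cast hp.ne_zero)]
  have h5 : ((-8 : ℤ) : ZMod p) = (-2) * 2 ^ 2 := by push_cast; norm_num
  rw [h3, h5, isSquare_mul_sq_iff (two_ne_zero_zmod hp2), Nat.cast_ofNat,
    ZMod.exists_sq_eq_two_iff hp2, ZMod.exists_sq_eq_neg_two_iff hp2]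
  omega

omit h2 in
theorem primeFactors_mul_primes {p q : ℕ} (hp : p.Prime) (hq : q.Prime) :
    (p * q).primeFactors = {p, q} := by
  rw [Nat.primeFactors_mul hp.ne_zero hq.ne_zero, hp.primeFactors, hq.primeFactors]
  rfl

/-- **`4 ∣ h(ℚ(√(-pq)))` if and only if `p` is a square modulo `q`** (discriminant `-pq`, `p ≠ q` odd
primes, `p ≡ 1 mod 4`, `q ≡ 3 mod 4`). -/
theorem four_dvd_classNumber_neg_mul {p q : ℕ} (hp : p.Prime) (hq : q.Prime) (hq2 : q ≠ 2)
    (hpq : p ≠ q) (hd : discr K = -(p * q)) :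
    4 ∣ classNumber K ↔ IsSquare ((p : ℕ) : ZMod q) := by
  have hneg : discr K < 0 := by
    rw [hd]
    have h1 : (0 : ℤ) < p := by exact_mod_cast hp.pos
    have h3 : (0 : ℤ) < q := by exact_mod_cast hq.pos
    exact neg_neg_of_pos (mul_pos h1 h3)
  have hset : (discr K).natAbs.primeFactors = {p, q} := by
    rw [hd, Int.natAbs_neg, Int.natAbs_mul, Int.natAbs_natCast, Int.natAbs_natCast,
      primeFactors_mul_primes hp hq]
  rw [← card_narrow_of_neg h2 hneg, four_dvd_iff_of_primeFactors h2 hpq hset hq2]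
  have h3 : -(discr K / ((q : ℕ) : ℤ)) = p := by
    rw [hd, ← neg_mul, Int.mul_ediv_cancel _ (by exact_mod_cast hq.ne_zero), neg_neg]
  rw [h3, Int.cast_natCast, and_self]

/-- **`4 ∣ h⁺(ℚ(√(pq)))` if and only if `p` is a square modulo `q`** (discriminant `pq`, `p ≠ q`
primes congruent to `1` modulo `4`). -/
theorem four_dvd_narrow_mul {p q : ℕ} (hp : p.Prime) (hq : q.Prime) (hq4 : q % 4 = 1)
    (hpq : p ≠ q) (hd : discr K = p * q) :
    4 ∣ Nat.card (NarrowClassGroup K) ↔ IsSquare ((p : ℕ) : ZMod q) := by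
  have hqf : Fact q.Prime := ⟨hq⟩
  have hq2 : q ≠ 2 := by rintro rfl; omega
  have hset : (discr K).natAbs.primeFactors = {p, q} := by
    rw [hd, Int.natAbs_mul, Int.natAbs_natCast, Int.natAbs_natCast,
      primeFactors_mul_primes hp hq]
  rw [four_dvd_iff_of_primeFactors h2 hpq hset hq2]
  have h3 : -(discr K / ((q : ℕ) : ℤ)) = -p := by
    rw [hd, Int.mul_ediv_cancel _ (by exact_mod_cast hq.ne_zero)]
  have h4 : IsSquare (-1 : ZMod q) := ZMod.exists_sq_eq_neg_one_iff.mpr (by omega)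
  rw [h3, Int.cast_neg, Int.cast_natCast, and_iff_left_iff_imp]
  intro h5
  rw [← neg_one_mul]
  exact h4.mul h5

end Fermat.Agent.Cor.PGT
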