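import Fermat.Agent.Corollaries.PGT.Wide
import Fermat.Agent.Corollaries.Ambi.Narrow
import Fermat.Agent.Corollaries.Parity.Delta
import Fermat.Agent.Corollaries.Siegel.DiscThree

/-!
# The genus characters of a quadratic field

`K` a quadratic field with discriminant `d`.

* `principal_genus_discr`: the narrow class of `𝔞` is a square if and only if `(d, N𝔞)_p = 1` for the
  primes `p` dividing `d`;
* `exists_genus`: a family of signs `(e_p)`, `p ∣ d`, is the family of the symbols `(d, N𝔞)_p` of an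
  ideal `𝔞` if and only if the product of the `e_p` is `1`.
-/

set_option autoImplicit false

noncomputable section

namespace Fermat.Agent.Cor.PGT

open NumberField
open Fermat.Agent.Cor.Diff (totPos NarrowClassGroup nmk nmk_surjective ncl0 ncl0_eq_one)
open Fermat.Agent.Cor.Hilb
open scoped nonZeroDivisors

theorem hilb_two_unit {m c : ℤ} (hm : m % 4 = 1) (hc : ¬ (2 : ℤ) ∣ c) :
    hilb (m : ℚ_[2]) (c : ℚ_[2]) = 1 := by
  have h : ∀ k : ℤ, ¬ (2 : ℤ) ∣ k → ∃ u : ℤ_[2]ˣ, (u : ℤ_[2]) = (k : ℤ_[2]) := by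
    intro k hk
    have h1 : ‖(k : ℤ_[2])‖ = 1 := by
      have h2 := (PadicInt.norm_int_lt_one_iff_dvd (p := 2) k).not.mpr hk
      exact le_antisymm (PadicInt.norm_le_one _) (not_lt.mp h2)
    obtain ⟨u, hu⟩ := PadicInt.isUnit_iff.mpr h1
    exact ⟨u, hu⟩
  obtain ⟨u, hu⟩ := h m (by omega)
  obtain ⟨w, hw⟩ := h c hc
  have h1 := hs_units_two u w
  have h2 : eps u = 0 := by
    rw [eps, hu, map_intCast, if_neg]
    intro h3
    have h4 : ((m : ℤ) : ZMod (2 ^ 2)) = ((3 : ℤ) : ZMod (2 ^ 2)) := by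
      rw [h3]
      rfl
    rw [ZMod.intCast_eq_intCast_iff] at h4
    have h5 : m % 4 = 3 % 4 := h4
    omega
  rw [h2, zero_mul, zpow_zero, hs_apply, uu_val, uu_val, hu, hw] at h1
  simpa using h1

section

variable {K : Type} [Field K] [NumberField K] (h2 : Module.finrank ℚ K = 2)

include h2

theorem exists_sqrt : ∃ α : K, α ^ 2 = ((discr K : ℤ) : K) ∧ α ∉ (algebraMap ℚ K).range := by
  obtain ⟨r, hr, hr'⟩ := Siegel.exists_sqrt_discr (K := K) h2
  exact ⟨r, hr, hr'⟩

omit h2 in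
theorem absNorm_ne_zero (A : (Ideal (𝓞 K))⁰) : Ideal.absNorm (A : Ideal (𝓞 K)) ≠ 0 := fun h =>
  (nonZeroDivisors.ne_zero A.2 : (A : Ideal (𝓞 K)) ≠ ⊥) (Ideal.absNorm_eq_zero_iff.mp h)

/-- The symbol `(d, N𝔞)_p` is trivial if `p` does not divide `d`. -/
theorem hilb_discr (A : (Ideal (𝓞 K))⁰) {p : ℕ} [hp : Fact p.Prime]
    (hpd : ¬ (p : ℤ) ∣ discr K) :
    hilb ((discr K : ℤ) : ℚ_[p]) (Ideal.absNorm (A : Ideal (𝓞 K)) : ℚ_[p]) = 1 := by
  obtain ⟨α, hα, hα'⟩ := exists_sqrt h2
  by_cases hp2 : p = 2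
  · subst hp2
    have hm : discr K % 4 = 1 := by
      rcases Parity.discr_mod_four K with h | h
      · exact absurd (Int.dvd_of_emod_eq_zero (by omega)) hpd
      · exact h
    have hm0 : ((discr K : ℤ) : ℚ_[2]) ≠ 0 := Int.cast_ne_zero.mpr (discr_ne_zero K)
    obtain ⟨x, c, hc, hx⟩ := exists_rep h2 2 A
    have hc0 : (c : ℚ_[2]) ≠ 0 := by
      rw [Int.cast_ne_zero]
      rintro rfl
      exact hc (dvd_zero _)
    have ha0 : (Ideal.absNorm (A : Ideal (𝓞 K)) : ℚ_[2]) ≠ 0 :=
      Nat.cast_ne_zero.mpr (absNorm_ne_zero A)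
    have h3 : hilb ((discr K : ℤ) : ℚ_[2]) ((Ideal.absNorm (A : Ideal (𝓞 K)) : ℚ_[2]) * c) = 1 := by
      rw [hilb_eq_one_iff_value hm0]
      obtain ⟨u, v, huv⟩ := (exists_norm_iff_rat h2 (m := (discr K : ℚ)) (by rw [hα]; simp) hα'
        (Algebra.norm ℚ (x : K))).mp ⟨_, rfl⟩
      refine ⟨u, v, ?_⟩
      have h4 : (Algebra.norm ℚ (x : K)) =
          ((Ideal.absNorm (A : Ideal (𝓞 K)) * c : ℤ) : ℚ) := by
        rw [← hx, Algebra.coe_norm_int]
      rw [h4] at huv
      have h5 := congrArg (fun q : ℚ => (q : ℚ_[2])) huv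
      push_cast at h5
      exact h5
    rwa [hilb_padic_mul_right hm0 ha0 hc0, hilb_two_unit hm hc, mul_one] at h3
  · refine hilb_absNorm h2 hα hα' A fun h => ?_
    have h3 : IsCoprime (p : ℤ) 2 := by
      rw [Int.isCoprime_iff_gcd_eq_one]
      have := (Nat.coprime_primes hp.out Nat.prime_two).mpr hp2
      exact_mod_cast this
    exact hpd (h3.dvd_of_dvd_mul_left h)

/-- **The principal genus theorem**: the narrow class of the ideal `𝔞` of the quadratic field `K` of
discriminant `d` is a square if and only if `(d, N𝔞)_p = 1` for the primes `p` dividing `d`. -/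
theorem principal_genus_discr (A : (Ideal (𝓞 K))⁰) :
    IsSquare (nu A) ↔ ∀ (p : ℕ) [Fact p.Prime], (p : ℤ) ∣ discr K →
      hilb ((discr K : ℤ) : ℚ_[p]) (Ideal.absNorm (A : Ideal (𝓞 K)) : ℚ_[p]) = 1 := by
  obtain ⟨α, hα, hα'⟩ := exists_sqrt h2
  rw [principal_genus_char h2 hα hα' A]
  constructor
  · intro h p _ hpd
    exact h p (hpd.mul_left 2)
  · intro h p _ _
    by_cases hd : (p : ℤ) ∣ discr K
    · exact h p hd
    · exact hilb_discr h2 A hd

end

/-! ### All genera -/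

section Exist

variable {K : Type} [Field K] [NumberField K]

/-- every narrow class contains an integral ideal -/
theorem nu_surjective : Function.Surjective (nu (K := K)) := by
  intro c
  obtain ⟨I, rfl⟩ := nmk_surjective c
  obtain ⟨a, J, ha, hI⟩ := FractionalIdeal.exists_eq_spanSingleton_mul
    (I : FractionalIdeal (𝓞 K)⁰ K)
  have ha' : algebraMap (𝓞 K) K a ≠ 0 := by
    rwa [Ne, FaithfulSMul.algebraMap_eq_zero_iff]
  have hJ : J ≠ ⊥ := by
    rintro rfl
    rw [FractionalIdeal.coeIdeal_bot, mul_zero] at hI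
    exact I.ne_zero hI
  have hJa : Ideal.span {a} * J ∈ (Ideal (𝓞 K))⁰ :=
    mem_nonZeroDivisors_of_ne_zero (mul_ne_zero
      (by rwa [Ne, Ideal.zero_eq_bot, Ideal.span_singleton_eq_bot]) hJ)
  refine ⟨⟨_, hJa⟩, ?_⟩
  have h1 : FractionalIdeal.mk0 K ⟨_, hJa⟩ =
      toPrincipalIdeal (𝓞 K) K (Units.mk0 _ ha' ^ 2) * I := by
    apply Units.ext
    rw [FractionalIdeal.coe_mk0, Units.val_mul, coe_toPrincipalIdeal, hI,
      FractionalIdeal.coeIdeal_mul, FractionalIdeal.coeIdeal_span_singleton, ← mul_assoc,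
      FractionalIdeal.spanSingleton_mul_spanSingleton]
    congr 2
    rw [Units.val_pow_eq_pow_val, Units.val_mk0]
    field_simp
  change nmk K (FractionalIdeal.mk0 K ⟨_, hJa⟩) = nmk K I
  rw [h1, map_mul]
  have h2 : ncl0 (Units.mk0 _ ha' ^ 2) = 1 := ncl0_eq_one fun φ => by
    rw [Units.val_pow_eq_pow_val, map_pow]
    have : φ ((Units.mk0 _ ha' : Kˣ) : K) ≠ 0 := (map_ne_zero φ).mpr (Units.ne_zero _)
    positivity
  change ncl0 (Units.mk0 _ ha' ^ 2) * nmk K I = nmk K I
  rw [h2, one_mul]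

variable (K) in
/-- the primes which divide the discriminant -/
abbrev Ram : Type := {p : ℕ // p ∈ (discr K).natAbs.primeFactors}

variable (K) in
/-- a prime dividing the discriminant as a prime -/
def Ram.toPrime (p : Ram K) : Nat.Primes := ⟨p.1, Nat.prime_of_mem_primeFactors p.2⟩

/-- **The genus** of an ideal `𝔞`: the Hilbert symbols `(d, N𝔞)_p`, `p ∣ d`. -/
def genus (A : (Ideal (𝓞 K))⁰) : Ram K → ℤˣ := fun p =>
  hilbAt (p.toPrime K) (discr K : ℚ) (Ideal.absNorm (A : Ideal (𝓞 K)) : ℚ)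

theorem hilbAt_cast (p : ℕ) [hp : Fact p.Prime] (d : ℤ) (n : ℕ) :
    hilbAt ⟨p, hp.out⟩ (d : ℚ) (n : ℚ) = hilb ((d : ℤ) : ℚ_[p]) ((n : ℕ) : ℚ_[p]) := by
  rw [hilbAt_eq, Rat.cast_intCast, Rat.cast_natCast]

theorem genus_apply (A : (Ideal (𝓞 K))⁰) (p : Ram K) [hp : Fact (p : ℕ).Prime] :
    genus A p = hilb ((discr K : ℤ) : ℚ_[p.1]) (Ideal.absNorm (A : Ideal (𝓞 K)) : ℚ_[p.1]) :=
  hilbAt_cast p.1 _ _

theorem mem_ram {p : ℕ} (hp : p.Prime) (h : (p : ℤ) ∣ discr K) :
    p ∈ (discr K).natAbs.primeFactors :=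
  Nat.mem_primeFactors.mpr ⟨hp, Int.natCast_dvd.mp h, Int.natAbs_ne_zero.mpr (discr_ne_zero K)⟩

/-- **The principal genus theorem**: the genus of `𝔞` is trivial if and only if the narrow class of
`𝔞` is a square. -/
theorem genus_eq_one_iff (h2 : Module.finrank ℚ K = 2) (A : (Ideal (𝓞 K))⁰) :
    genus A = 1 ↔ IsSquare (nu A) := by
  rw [principal_genus_discr h2]
  constructor
  · intro h p hp hpd
    have h1 := congrFun h ⟨p, mem_ram hp.out hpd⟩
    rwa [genus_apply (hp := hp)] at h1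
  · intro h
    funext p
    have hp : Fact (p : ℕ).Prime := ⟨Nat.prime_of_mem_primeFactors p.2⟩
    rw [genus_apply]
    exact h p.1 (Int.natCast_dvd.mpr (Nat.dvd_of_mem_primeFactors p.2))

theorem genus_mul (A B : (Ideal (𝓞 K))⁰) : genus (A * B) = genus A * genus B := by
  funext p
  have hp : Fact (p : ℕ).Prime := ⟨Nat.prime_of_mem_primeFactors p.2⟩
  rw [Pi.mul_apply, genus_apply, genus_apply, genus_apply, Submonoid.coe_mul, map_mul, Nat.cast_mul]
  exact hilb_padic_mul_right (Int.cast_ne_zero.mpr (discr_ne_zero K))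
    (Nat.cast_ne_zero.mpr (absNorm_ne_zero A)) (Nat.cast_ne_zero.mpr (absNorm_ne_zero B))

/-- the product formula for the genus characters -/
theorem prod_genus (h2 : Module.finrank ℚ K = 2) (A : (Ideal (𝓞 K))⁰) : ∏ p, genus A p = 1 := by
  have hd : (discr K : ℚ) ≠ 0 := Int.cast_ne_zero.mpr (discr_ne_zero K)
  have ha : (Ideal.absNorm (A : Ideal (𝓞 K)) : ℚ) ≠ 0 := Nat.cast_ne_zero.mpr (absNorm_ne_zero A)
  have h1 := product_formula hd ha
  have h3 : hilbInf (discr K : ℚ) (Ideal.absNorm (A : Ideal (𝓞 K)) : ℚ) = 1 := by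
    rw [hilbInf_eq hd ha, if_neg]
    rintro ⟨-, h⟩
    exact absurd h (not_lt.mpr (Nat.cast_nonneg _))
  rw [h3, mul_one] at h1
  have hinj : Function.Injective (Ram.toPrime K) := fun p q h =>
    Subtype.ext (congrArg (fun r : Nat.Primes => r.1) h)
  rw [← h1, finprod_eq_prod_of_mulSupport_subset (s := Finset.univ.map ⟨_, hinj⟩),
    Finset.prod_map]
  · rfl
  · intro q hq
    have hqp : Fact q.1.Prime := ⟨q.2⟩
    rw [Function.mem_mulSupport] at hq
    have h4 : (q.1 : ℤ) ∣ discr K := by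
      by_contra h4
      exact hq ((hilbAt_cast q.1 _ _).trans (hilb_discr h2 A h4))
    rw [Finset.coe_map, Finset.coe_univ, Set.image_univ]
    exact ⟨⟨q.1, mem_ram q.2 h4⟩, rfl⟩

theorem mul_self_eq_one (e : Ram K → ℤˣ) : e * e = 1 := by
  funext p
  exact Int.units_mul_self (e p)

/-- **Gauss: the genera of a quadratic field.** A family of signs `(e_p)`, indexed by the primes
dividing the discriminant, is the genus of an ideal if and only if its product is `1`. -/
theorem exists_genus (h2 : Module.finrank ℚ K = 2) (e : Ram K → ℤˣ) :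
    (∃ A : (Ideal (𝓞 K))⁰, genus A = e) ↔ ∏ p, e p = 1 := by
  constructor
  · rintro ⟨A, rfl⟩
    exact prod_genus h2 A
  · intro he
    let H := (powMonoidHom 2 : NarrowClassGroup K →* NarrowClassGroup K).range
    let P : (Ram K → ℤˣ) →* ℤˣ := MonoidHom.mk' (fun e => ∏ p, e p) fun a b => by
      simp only [Pi.mul_apply, Finset.prod_mul_distrib]
    have hrep : ∀ q : NarrowClassGroup K ⧸ H, ∃ A : (Ideal (𝓞 K))⁰, (nu A : _ ⧸ H) = q := by
      intro q
      obtain ⟨c, rfl⟩ := QuotientGroup.mk_surjective q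
      obtain ⟨A, rfl⟩ := nu_surjective c
      exact ⟨A, rfl⟩
    choose rep hrep using hrep
    let f : NarrowClassGroup K ⧸ H → P.ker := fun q => ⟨genus (rep q), prod_genus h2 _⟩
    have hf : Function.Injective f := by
      intro q q' h
      have h1 : genus (rep q) = genus (rep q') := congrArg Subtype.val h
      have h3 : genus (rep q * rep q') = 1 := by rw [genus_mul, h1, mul_self_eq_one]
      obtain ⟨c, hc⟩ := (genus_eq_one_iff h2 _).mp h3
      rw [← hrep q, ← hrep q', QuotientGroup.eq]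
      refine ⟨c * (nu (rep q))⁻¹, ?_⟩
      rw [powMonoidHom_apply, mul_pow, sq c, ← hc, map_mul, sq, mul_right_comm,
        mul_inv_cancel_left]
    have hcard : Nat.card P.ker ≤ Nat.card (NarrowClassGroup K ⧸ H) := by
      have h3 := Ambi.card_narrow_mul_two h2
      have h4 : Nat.card (NarrowClassGroup K ⧸ H) * 2 =
          2 ^ (discr K).natAbs.primeFactors.card := by
        rw [← h3]
        congr 1
        have h5 := Ambi.index_squares_narrow h2
        rw [← Ambi.card_narrow_sq_eq_one h2] at h5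
        exact h5
      have hne : Nonempty (Ram K) := by
        by_contra hne
        rw [nonempty_subtype, not_exists] at hne
        rw [Finset.card_eq_zero.mpr (Finset.eq_empty_iff_forall_notMem.mpr hne), pow_zero] at h4
        omega
      obtain ⟨p₀⟩ := hne
      have h5 : P.range = ⊤ := by
        rw [eq_top_iff]
        rintro u -
        refine ⟨fun p => if p = p₀ then u else 1, ?_⟩
        change ∏ p, (if p = p₀ then u else 1) = u
        rw [Finset.prod_ite_eq' Finset.univ p₀ (fun _ => u), if_pos (Finset.mem_univ _)]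
      have h6 := Subgroup.card_mul_index P.ker
      rw [Subgroup.index_ker, h5] at h6
      have h7 : Nat.card (⊤ : Subgroup ℤˣ) = 2 := by
        rw [Subgroup.card_top, Nat.card_eq_fintype_card]
        rfl
      have h8 : Nat.card (Ram K → ℤˣ) = 2 ^ (discr K).natAbs.primeFactors.card := by
        rw [Nat.card_eq_fintype_card, Fintype.card_fun, Fintype.card_coe]
        rfl
      rw [h7, h8] at h6
      omega
    obtain ⟨q, hq⟩ := (hf.bijective_of_nat_card_le hcard).2 ⟨e, he⟩
    exact ⟨rep q, congrArg Subtype.val hq⟩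

end Exist

end Fermat.Agent.Cor.PGT
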