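import Fermat.Agent.Corollaries.PGT.Main
import Fermat.Agent.Corollaries.HM.Rational

/-!
# The principal genus theorem, in terms of the local symbols

`K = ℚ(α)` with `α² = m`. The narrow class of an ideal `𝔞` is a square if and only if the norm of
`𝔞` has the form `u² - m v²` over `ℚ_p` for every prime `p`.
-/

set_option autoImplicit false

noncomputable section

namespace Fermat.Agent.Cor.PGT

open NumberField
open Fermat.Agent.Cor.Diff (NarrowClassGroup)
open scoped nonZeroDivisors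

/-- **The theorem of Legendre** in the form needed here: a positive rational number `a` has the form
`u² - m v²` over `ℚ` if it has this form over all `ℚ_p`. -/
theorem exists_rat_iff {m a : ℚ} (hm : ¬ IsSquare m) (ha : 0 < a) :
    (∃ u v : ℚ, u ^ 2 - m * v ^ 2 = a) ↔
      ∀ (p : ℕ) [Fact p.Prime], ∃ u v : ℚ_[p], u ^ 2 - (m : ℚ_[p]) * v ^ 2 = (a : ℚ_[p]) := by
  constructor
  · rintro ⟨u, v, h⟩ p _
    refine ⟨u, v, ?_⟩
    rw [← h]
    push_cast
    ring
  · intro h
    have h1 := (HM.hasse_minkowski_rat_diag ![1, -m, -a]).mpr ⟨?_, ?_⟩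
    · obtain ⟨x, hx0, hx⟩ := h1
      rw [Fin.sum_univ_three] at hx
      replace hx : (1 : ℚ) * x 0 ^ 2 + (-m) * x 1 ^ 2 + (-a) * x 2 ^ 2 = 0 := hx
      have hz : x 2 ≠ 0 := by
        intro hz
        rw [hz] at hx
        by_cases hy : x 1 = 0
        · rw [hy] at hx
          have h3 : x 0 = 0 := by
            have : x 0 ^ 2 = 0 := by linarith
            exact pow_eq_zero_iff two_ne_zero |>.mp this
          apply hx0
          ext i
          fin_cases i
          · exact h3
          · exact hy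
          · exact hz
        · apply hm
          refine ⟨x 0 / x 1, ?_⟩
          field_simp
          linarith
      refine ⟨x 0 / x 2, x 1 / x 2, ?_⟩
      field_simp
      linarith
    · refine ⟨![Real.sqrt a, 0, 1], fun h0 => ?_, ?_⟩
      · have := congrFun h0 2
        simp at this
      · rw [Fin.sum_univ_three]
        have h4 : Real.sqrt a ^ 2 = a := Real.sq_sqrt (by exact_mod_cast ha.le)
        simp [h4]
    · intro p _
      obtain ⟨u, v, huv⟩ := h p
      refine ⟨![u, v, 1], fun h0 => ?_, ?_⟩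
      · have := congrFun h0 2
        simp at this
      · rw [Fin.sum_univ_three]
        change ((1 : ℚ) : ℚ_[p]) * u ^ 2 + ((-m : ℚ) : ℚ_[p]) * v ^ 2 +
          ((-a : ℚ) : ℚ_[p]) * 1 ^ 2 = 0
        rw [Rat.cast_neg, Rat.cast_neg, ← huv, Rat.cast_one]
        ring

section

variable {K : Type} [Field K] [NumberField K]

theorem isGalois_of_two (h2 : Module.finrank ℚ K = 2) : IsGalois ℚ K := by
  have : Algebra.IsQuadraticExtension ℚ K := ⟨h2⟩
  infer_instance

theorem exists_conj (h2 : Module.finrank ℚ K = 2) : ∃ σ : K ≃ₐ[ℚ] K, σ ≠ 1 := by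
  have := isGalois_of_two h2
  have h := IsGalois.card_aut_eq_finrank ℚ K
  rw [h2] at h
  have h1 : 1 < Nat.card (K ≃ₐ[ℚ] K) := by rw [h]; exact one_lt_two
  have := Finite.one_lt_card_iff_nontrivial.mp h1
  exact exists_ne 1

theorem norm_rat (h2 : Module.finrank ℚ K = 2) {α : K} {m : ℚ} (hα : α ^ 2 = algebraMap ℚ K m)
    (hα' : α ∉ (algebraMap ℚ K).range) (u v : ℚ) :
    Algebra.norm ℚ (algebraMap ℚ K u + algebraMap ℚ K v * α) = u ^ 2 - m * v ^ 2 := by
  have := isGalois_of_two h2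
  obtain ⟨σ, hσ⟩ := exists_conj h2
  have h1 : σ α = -α := by
    have h3 : σ α ^ 2 = α ^ 2 := by rw [← map_pow, hα, AlgEquiv.commutes]
    rcases sq_eq_sq_iff_eq_or_eq_neg.mp h3 with h4 | h4
    · exfalso
      apply hα'
      have h5 := (IsGalois.mem_range_algebraMap_iff_fixed (F := ℚ) (E := K) α).mpr fun g => by
        rcases eq_one_or h2 hσ g with rfl | rfl
        · rfl
        · exact h4
      exact h5
    · exact h4
  apply (algebraMap ℚ K).injective
  rw [Fermat.Agent.CFT.Global2.Unr.norm_eq_mul h2 hσ, map_add, map_mul, h1, AlgEquiv.commutes,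
    AlgEquiv.commutes, map_sub, map_mul, map_pow, map_pow, ← hα]
  ring

theorem exists_coord (h2 : Module.finrank ℚ K = 2) {α : K}
    (hα' : α ∉ (algebraMap ℚ K).range) (x : K) :
    ∃ u v : ℚ, x = algebraMap ℚ K u + algebraMap ℚ K v * α := by
  have hli : LinearIndependent ℚ ![(1 : K), α] := by
    rw [LinearIndependent.pair_iff]
    intro s t hst
    have ht : t = 0 := by
      by_contra ht
      apply hα'
      refine ⟨-(s / t), ?_⟩
      have ht' : algebraMap ℚ K t ≠ 0 := (map_ne_zero _).mpr ht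
      rw [Algebra.smul_def, Algebra.smul_def, mul_one] at hst
      rw [map_neg, map_div₀]
      field_simp
      linear_combination -hst
    subst ht
    refine ⟨?_, rfl⟩
    rw [zero_smul, add_zero, Algebra.smul_def, mul_one] at hst
    exact (map_eq_zero _).mp hst
  have hspan := hli.span_eq_top_of_card_eq_finrank' (by rw [Fintype.card_fin, h2])
  have hx : x ∈ Submodule.span ℚ (Set.range ![(1 : K), α]) := by rw [hspan]; trivial
  rw [Matrix.range_cons, Matrix.range_cons, Matrix.range_empty, Set.union_empty,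
    Set.singleton_union, Submodule.mem_span_pair] at hx
  obtain ⟨u, v, h⟩ := hx
  refine ⟨u, v, ?_⟩
  rw [← h, Algebra.smul_def, Algebra.smul_def, mul_one]

theorem exists_norm_iff_rat (h2 : Module.finrank ℚ K = 2) {α : K} {m : ℚ}
    (hα : α ^ 2 = algebraMap ℚ K m) (hα' : α ∉ (algebraMap ℚ K).range) (a : ℚ) :
    (∃ x : K, Algebra.norm ℚ x = a) ↔ ∃ u v : ℚ, u ^ 2 - m * v ^ 2 = a := by
  constructor
  · rintro ⟨x, rfl⟩
    obtain ⟨u, v, rfl⟩ := exists_coord h2 hα' x
    exact ⟨u, v, (norm_rat h2 hα hα' u v).symm⟩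
  · rintro ⟨u, v, rfl⟩
    exact ⟨_, norm_rat h2 hα hα' u v⟩

/-- **Gauss's principal genus theorem.** Let `K = ℚ(α)`, `α² = m`, be a quadratic field. The narrow
class of a non-zero ideal `𝔞` of `K` is a square if and only if `𝔞` belongs to the principal genus:
for all primes `p` the equation `u² - m v² = N𝔞` has a solution over `ℚ_p`. -/
theorem principal_genus (h2 : Module.finrank ℚ K = 2) {α : K} {m : ℚ}
    (hα : α ^ 2 = algebraMap ℚ K m) (hα' : α ∉ (algebraMap ℚ K).range) (A : (Ideal (𝓞 K))⁰) :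
    IsSquare (nu A) ↔ ∀ (p : ℕ) [Fact p.Prime], ∃ u v : ℚ_[p],
      u ^ 2 - (m : ℚ_[p]) * v ^ 2 = (Ideal.absNorm (A : Ideal (𝓞 K)) : ℚ_[p]) := by
  have := isGalois_of_two h2
  obtain ⟨σ, hσ⟩ := exists_conj h2
  have hm : ¬ IsSquare m := by
    rintro ⟨r, rfl⟩
    rw [map_mul, ← sq] at hα
    rcases sq_eq_sq_iff_eq_or_eq_neg.mp hα with h | h
    · exact hα' ⟨r, h.symm⟩
    · exact hα' ⟨-r, by rw [map_neg, h]⟩
  have ha : (0 : ℚ) < (Ideal.absNorm (A : Ideal (𝓞 K)) : ℚ) := by
    rw [Nat.cast_pos]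
    exact Nat.pos_of_ne_zero fun h =>
      (nonZeroDivisors.ne_zero A.2 : (A : Ideal (𝓞 K)) ≠ ⊥) (Ideal.absNorm_eq_zero_iff.mp h)
  rw [isSquare_nu_iff h2 hσ, exists_norm_iff_rat h2 hα hα', exists_rat_iff hm ha]
  simp only [Rat.cast_natCast]

/-- Two ideals belong to the same genus if and only if their narrow classes differ by a square. -/
theorem same_genus (h2 : Module.finrank ℚ K = 2) {α : K} {m : ℚ}
    (hα : α ^ 2 = algebraMap ℚ K m) (hα' : α ∉ (algebraMap ℚ K).range) (A B : (Ideal (𝓞 K))⁰) :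
    (∃ c : NarrowClassGroup K, nu A = nu B * c ^ 2) ↔ ∀ (p : ℕ) [Fact p.Prime], ∃ u v : ℚ_[p],
      u ^ 2 - (m : ℚ_[p]) * v ^ 2 =
        (Ideal.absNorm (A : Ideal (𝓞 K)) * Ideal.absNorm (B : Ideal (𝓞 K)) : ℚ_[p]) := by
  have h := principal_genus h2 hα hα' (A * B)
  rw [Submonoid.coe_mul, map_mul, map_mul] at h
  simp only [Nat.cast_mul] at h
  rw [← h]
  constructor
  · rintro ⟨c, hc⟩
    exact ⟨nu B * c, by rw [hc, sq, mul_mul_mul_comm, mul_right_comm, mul_assoc]⟩
  · rintro ⟨c, hc⟩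
    refine ⟨c / nu B, ?_⟩
    rw [div_pow, sq c, ← hc, sq, mul_div_mul_right_eq_div, mul_div_cancel]

end

end Fermat.Agent.Cor.PGT
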