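import Fermat.Agent.Corollaries.PGT.Basic
import Fermat.Agent.Corollaries.Diff.Narrow

/-!
# The principal genus theorem

`K` is a quadratic field. The narrow class of a non-zero ideal `𝔞` of `K` is a square if and only if
the norm of `𝔞` is the norm of an element of `K`.
-/

set_option autoImplicit false

noncomputable section

namespace Fermat.Agent.Cor.PGT

open NumberField
open Fermat.Agent.Cor.Diff (totPos mem_totPos NarrowClassGroup nmk nmk_eq_one_iff ncl0 ncl0_eq_one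
  nmk_surjective)
open scoped nonZeroDivisors

variable {K : Type} [Field K] [NumberField K]

theorem toPrincipalIdeal_neg (x : Kˣ) :
    toPrincipalIdeal (𝓞 K) K (-x) = toPrincipalIdeal (𝓞 K) K x := by
  apply Units.ext
  rw [coe_toPrincipalIdeal, coe_toPrincipalIdeal, Units.val_neg]
  apply FractionalIdeal.coeToSubmodule_injective
  change ((FractionalIdeal.spanSingleton (𝓞 K)⁰ (-(x : K)) : FractionalIdeal (𝓞 K)⁰ K) :
    Submodule (𝓞 K) K) = (FractionalIdeal.spanSingleton (𝓞 K)⁰ (x : K) : Submodule (𝓞 K) K)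
  rw [FractionalIdeal.coe_spanSingleton, FractionalIdeal.coe_spanSingleton, ← Set.neg_singleton,
    Submodule.span_neg]

/-- the narrow class of an ideal -/
def nu : (Ideal (𝓞 K))⁰ →* NarrowClassGroup K := (nmk K).comp (FractionalIdeal.mk0 K)

section

variable [IsGalois ℚ K] (h2 : Module.finrank ℚ K = 2) {σ : K ≃ₐ[ℚ] K} (hσ : σ ≠ 1)

include h2 hσ

theorem eq_one_or (g : K ≃ₐ[ℚ] K) : g = 1 ∨ g = σ := by
  classical
  have h := Finset.mem_univ g
  rw [Fermat.Agent.CFT.Global2.Unr.univ_eq h2 hσ] at h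
  simpa using h

theorem real_eq (φ ψ : K →+* ℝ) : ψ = φ ∨ ψ = φ.comp (σ : K →+* K) := by
  obtain ⟨g, hg⟩ := NumberField.ComplexEmbedding.exists_comp_symm_eq_of_comp_eq (k := ℚ)
    (Complex.ofRealHom.comp φ) (Complex.ofRealHom.comp ψ) (Subsingleton.elim _ _)
  have h1 : ∀ x, ψ x = φ (g.symm x) := fun x =>
    (Complex.ofReal_injective (RingHom.congr_fun hg x)).symm
  rcases eq_one_or h2 hσ g.symm with h3 | h3
  · left
    ext x
    rw [h1, h3]
    rfl
  · right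
    ext x
    rw [h1, h3]
    rfl

theorem norm_real (φ : K →+* ℝ) (x : K) :
    ((Algebra.norm ℚ x : ℚ) : ℝ) = φ x * φ (σ x) := by
  rw [← map_mul, ← Fermat.Agent.CFT.Global2.Unr.norm_eq_mul h2 hσ, eq_ratCast, map_ratCast]

theorem norm_pos_of_not_real (hr : ¬ Nonempty (K →+* ℝ)) {x : K} (hx : x ≠ 0) :
    0 < Algebra.norm ℚ x := by
  obtain ⟨φ⟩ : Nonempty (K →+* ℂ) := inferInstance
  obtain ⟨g, hg⟩ := NumberField.ComplexEmbedding.exists_comp_symm_eq_of_comp_eq (k := ℚ)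
    φ (ComplexEmbedding.conjugate φ) (Subsingleton.elim _ _)
  rcases eq_one_or h2 hσ g.symm with h3 | h3
  · exfalso
    apply hr
    have h4 : ComplexEmbedding.conjugate φ = φ := by
      rw [← hg]
      ext y
      change φ (g.symm y) = φ y
      rw [h3]
      rfl
    exact ⟨(ComplexEmbedding.isReal_iff.mpr h4).embedding⟩
  · have h5 : starRingEnd ℂ (φ x) = φ (σ x) := by
      rw [← h3]
      exact (RingHom.congr_fun hg x).symm
    have h6 : ((Algebra.norm ℚ x : ℚ) : ℂ) = ((Complex.normSq (φ x) : ℝ) : ℂ) := by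
      rw [← Complex.mul_conj, h5, ← map_mul, ← Fermat.Agent.CFT.Global2.Unr.norm_eq_mul h2 hσ,
        eq_ratCast, map_ratCast]
    have h7 : ((Algebra.norm ℚ x : ℚ) : ℝ) = Complex.normSq (φ x) := by exact_mod_cast h6
    have h8 : 0 < Complex.normSq (φ x) := Complex.normSq_pos.mpr ((map_ne_zero φ).mpr hx)
    rw [← h7] at h8
    exact_mod_cast h8

/-- a totally positive element has positive norm -/
theorem norm_pos_of_totPos {x : Kˣ} (hx : x ∈ totPos K) : 0 < Algebra.norm ℚ (x : K) := by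
  by_cases hr : Nonempty (K →+* ℝ)
  · obtain ⟨φ⟩ := hr
    have h1 : (0 : ℝ) < φ x * φ (σ x) := mul_pos (hx φ) (hx (φ.comp (σ : K →+* K)))
    rw [← norm_real h2 hσ φ] at h1
    exact_mod_cast h1
  · exact norm_pos_of_not_real h2 hσ hr x.ne_zero

/-- an element of positive norm is, up to sign, totally positive -/
theorem totPos_or_neg {x : Kˣ} (hx : 0 < Algebra.norm ℚ (x : K)) :
    x ∈ totPos K ∨ -x ∈ totPos K := by
  by_cases hr : Nonempty (K →+* ℝ)
  · obtain ⟨φ⟩ := hr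
    have h1 : (0 : ℝ) < φ x * φ (σ x) := by
      rw [← norm_real h2 hσ φ]
      exact_mod_cast hx
    rcases lt_or_gt_of_ne ((map_ne_zero φ).mpr x.ne_zero) with h | h
    · right
      have h3 : φ (σ x) < 0 := by
        by_contra hc
        push Not at hc
        have := mul_nonpos_of_nonpos_of_nonneg h.le hc
        linarith
      intro ψ
      rw [Units.val_neg, map_neg]
      rcases real_eq h2 hσ φ ψ with rfl | rfl
      · linarith
      · change 0 < -(φ (σ x))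
        linarith
    · left
      have h3 : 0 < φ (σ x) := (pos_iff_pos_of_mul_pos h1).mp h
      intro ψ
      rcases real_eq h2 hσ φ ψ with rfl | rfl
      · exact h
      · exact h3
  · left
    exact fun ψ => (hr ⟨ψ⟩).elim

theorem ncl0_of_norm_pos {x : Kˣ} (hx : 0 < Algebra.norm ℚ (x : K)) : ncl0 x = 1 := by
  rcases totPos_or_neg h2 hσ hx with h | h
  · exact ncl0_eq_one h
  · have h1 := ncl0_eq_one h
    rw [← h1]
    change nmk K (toPrincipalIdeal (𝓞 K) K x) = nmk K (toPrincipalIdeal (𝓞 K) K (-x))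
    rw [toPrincipalIdeal_neg]

theorem nu_span {x : 𝓞 K} (I : (Ideal (𝓞 K))⁰) (hI : (I : Ideal (𝓞 K)) = Ideal.span {x})
    (hx : 0 < Algebra.norm ℚ (x : K)) : nu I = 1 := by
  have h0 : (x : K) ≠ 0 := by
    intro h
    rw [h, Algebra.norm_zero] at hx
    exact lt_irrefl _ hx
  rw [← ncl0_of_norm_pos h2 hσ (x := Units.mk0 (x : K) h0) hx]
  change nmk K (FractionalIdeal.mk0 K I) = nmk K (toPrincipalIdeal (𝓞 K) K (Units.mk0 (x : K) h0))
  congr 1
  apply Units.ext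
  rw [FractionalIdeal.coe_mk0, coe_toPrincipalIdeal, hI, FractionalIdeal.coeIdeal_span_singleton]
  rfl

omit [IsGalois ℚ K] hσ in
theorem norm_natCast_pos {n : ℕ} (hn : n ≠ 0) : 0 < Algebra.norm ℚ (((n : 𝓞 K) : K)) := by
  have h6 : ((n : 𝓞 K) : K) = algebraMap ℚ K (n : ℚ) := by simp
  rw [h6, Algebra.norm_algebraMap, h2]
  have : (0 : ℚ) < n := by
    rw [Nat.cast_pos]
    exact Nat.pos_of_ne_zero hn
  positivity

omit [NumberField K] [IsGalois ℚ K] h2 hσ in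
theorem span_ne_bot' {x : 𝓞 K} (hx : x ≠ 0) : Ideal.span {x} ∈ (Ideal (𝓞 K))⁰ :=
  mem_nonZeroDivisors_of_ne_zero (by rwa [Ne, Ideal.zero_eq_bot, Ideal.span_singleton_eq_bot])

theorem isSquare_nu_of_norm_int (A : (Ideal (𝓞 K))⁰) (z : 𝓞 K)
    (hz : z * conj σ z = (Ideal.absNorm (A : Ideal (𝓞 K)) : 𝓞 K)) : IsSquare (nu A) := by
  have hA0 : (A : Ideal (𝓞 K)) ≠ ⊥ := nonZeroDivisors.ne_zero A.2
  have ha0 : Ideal.absNorm (A : Ideal (𝓞 K)) ≠ 0 := fun h => hA0 (Ideal.absNorm_eq_zero_iff.mp h)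
  have hz0 : z ≠ 0 := by
    rintro rfl
    rw [zero_mul] at hz
    exact ha0 (Nat.cast_eq_zero.mp hz.symm)
  have hτ0 : conj σ z ≠ 0 := by
    rw [Ne, EmbeddingLike.map_eq_zero_iff]
    exact hz0
  have hB0 : (A : Ideal (𝓞 K)) ⊔ Ideal.span {z} ≠ ⊥ := fun h =>
    hA0 (le_bot_iff.mp (h ▸ le_sup_left))
  have hb0 : Ideal.absNorm ((A : Ideal (𝓞 K)) ⊔ Ideal.span {z}) ≠ 0 := fun h =>
    hB0 (Ideal.absNorm_eq_zero_iff.mp h)
  have hb1 : ((Ideal.absNorm ((A : Ideal (𝓞 K)) ⊔ Ideal.span {z}) : ℕ) : 𝓞 K) ≠ 0 :=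
    Nat.cast_ne_zero.mpr hb0
  have hkey : A * ⟨_, span_ne_bot' hb1⟩ =
      ⟨_, span_ne_bot' hτ0⟩ * ⟨_, mem_nonZeroDivisors_of_ne_zero hB0⟩ ^ 2 :=
    Subtype.ext (sq_of_norm h2 hσ _ z hz)
  have hT : 0 < Algebra.norm ℚ ((conj σ z : 𝓞 K) : K) := by
    rw [coe_conj, Algebra.norm_eq_of_algEquiv, ← Algebra.coe_norm_int]
    have h7 : ((Algebra.norm ℤ z : ℤ) : 𝓞 K) =
        (((Ideal.absNorm (A : Ideal (𝓞 K)) : ℕ) : ℤ) : 𝓞 K) := by
      rw [norm_int_eq h2 hσ, hz, Int.cast_natCast]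
    rw [Int.cast_inj] at h7
    rw [h7, Int.cast_natCast, Nat.cast_pos]
    exact Nat.pos_of_ne_zero ha0
  have h5 := congrArg nu hkey
  rw [map_mul, map_mul, map_pow,
    nu_span h2 hσ ⟨_, span_ne_bot' hb1⟩ rfl (norm_natCast_pos h2 hb0),
    nu_span h2 hσ ⟨_, span_ne_bot' hτ0⟩ rfl hT, mul_one, one_mul] at h5
  exact ⟨_, by rw [h5, sq]⟩

theorem isSquare_nu_of_norm (A : (Ideal (𝓞 K))⁰) (x : K)
    (hx : Algebra.norm ℚ x = (Ideal.absNorm (A : Ideal (𝓞 K)) : ℚ)) : IsSquare (nu A) := by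
  obtain ⟨k, hk0, hk⟩ := ((IsFractionRing.isAlgebraic_iff ℤ ℚ K).mpr
    (Algebra.IsAlgebraic.isAlgebraic (R := ℚ) x)).exists_integral_multiple
  obtain ⟨z, hz⟩ : ∃ z : 𝓞 K, (z : K) = (k : K) * x := ⟨⟨k • x, hk⟩, by
    change k • x = _
    rw [zsmul_eq_mul]⟩
  have hn0 : k.natAbs ≠ 0 := Int.natAbs_ne_zero.mpr hk0
  have hn1 : (k.natAbs : 𝓞 K) ≠ 0 := Nat.cast_ne_zero.mpr hn0
  have hk2 : (k : ℚ) ^ 2 = (k.natAbs : ℚ) ^ 2 := by
    rw [← Int.cast_natCast (R := ℚ) k.natAbs, ← Int.cast_pow, ← Int.cast_pow, Int.natAbs_sq]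
  have hNz : Algebra.norm ℚ (z : K) = (Ideal.absNorm (A : Ideal (𝓞 K)) : ℚ) *
      (k.natAbs : ℚ) ^ 2 := by
    rw [hz, map_mul, ← eq_intCast (algebraMap ℤ K) k, IsScalarTower.algebraMap_apply ℤ ℚ K,
      Algebra.norm_algebraMap, h2, hx, eq_intCast, hk2]
    ring
  have h1 : Algebra.norm ℤ z = (Ideal.absNorm (A : Ideal (𝓞 K)) * k.natAbs ^ 2 : ℕ) := by
    apply Int.cast_injective (α := ℚ)
    rw [Algebra.coe_norm_int, hNz, Int.cast_natCast, Nat.cast_mul, Nat.cast_pow]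
  have h4 : IsSquare (nu (A * ⟨_, span_ne_bot' hn1⟩)) := by
    refine isSquare_nu_of_norm_int h2 hσ _ z ?_
    rw [← norm_int_eq h2 hσ, h1, Submonoid.coe_mul, map_mul, absNorm_natCast h2, Int.cast_natCast]
  rwa [map_mul, nu_span h2 hσ ⟨_, span_ne_bot' hn1⟩ rfl (norm_natCast_pos h2 hn0), mul_one] at h4

/-- **The principal genus theorem**: the narrow class of an ideal `𝔞` of a quadratic field is a
square if and only if the norm of `𝔞` is the norm of an element of the field. -/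
theorem isSquare_nu_iff (A : (Ideal (𝓞 K))⁰) :
    IsSquare (nu A) ↔ ∃ x : K, Algebra.norm ℚ x = (Ideal.absNorm (A : Ideal (𝓞 K)) : ℚ) := by
  constructor
  · rintro ⟨r, hr⟩
    obtain ⟨I, rfl⟩ := nmk_surjective r
    have h1 : nmk K (FractionalIdeal.mk0 K A * (I * I)⁻¹) = 1 := by
      rw [map_mul, map_inv, map_mul, ← hr]
      exact mul_inv_cancel _
    obtain ⟨x, hx, h3⟩ := (nmk_eq_one_iff _).mp h1
    have h4 : FractionalIdeal.mk0 K A = toPrincipalIdeal (𝓞 K) K x * (I * I) := by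
      rw [h3, inv_mul_cancel_right]
    have h5 := congrArg (fun J : (FractionalIdeal (𝓞 K)⁰ K)ˣ => FractionalIdeal.absNorm
      (J : FractionalIdeal (𝓞 K)⁰ K)) h4
    simp only [Units.val_mul, map_mul, FractionalIdeal.coe_mk0, FractionalIdeal.coeIdeal_absNorm,
      coe_toPrincipalIdeal, FractionalIdeal.absNorm_span_singleton] at h5
    rw [abs_of_pos (norm_pos_of_totPos h2 hσ hx)] at h5
    refine ⟨(x : K) * algebraMap ℚ K (FractionalIdeal.absNorm (I : FractionalIdeal (𝓞 K)⁰ K)), ?_⟩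
    rw [map_mul, Algebra.norm_algebraMap, h2, h5]
    ring
  · rintro ⟨x, hx⟩
    exact isSquare_nu_of_norm h2 hσ A x hx

end

end Fermat.Agent.Cor.PGT
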