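import Fermat.Agent.Corollaries.PGT.Amb

/-!
# Rédei's theorem on the 4-rank of the narrow class group of a quadratic field

`K` a quadratic field, `d` its discriminant, `t` the number of primes dividing `d`. The entries of
Rédei's matrix, indexed by the primes dividing `d`, are the Hilbert symbols `(d, p)_q`, written
additively. Its rank is `t - 1 - r₄`, where `2 ^ r₄` is the number of the narrow classes `c` with
`c² = 1` which are squares.
-/

set_option autoImplicit false

noncomputable section

namespace Fermat.Agent.Cor.PGT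

open NumberField
open Fermat.Agent.Cor.Diff (NarrowClassGroup)
open Fermat.Agent.Cor.Hilb
open scoped nonZeroDivisors

variable {K : Type} [Field K] [NumberField K]

/-- the signs as elements of `ℤ / 2` -/
def ad (e : ℤˣ) : ZMod 2 := if e = 1 then 0 else 1

theorem ad_mul (a b : ℤˣ) : ad (a * b) = ad a + ad b := by
  rcases Int.units_eq_one_or a with rfl | rfl <;> rcases Int.units_eq_one_or b with rfl | rfl <;>
    decide

theorem ad_eq_zero_iff {a : ℤˣ} : ad a = 0 ↔ a = 1 := by
  rcases Int.units_eq_one_or a with rfl | rfl <;> decide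

/-- `ad` as a homomorphism -/
def adH : ℤˣ →* Multiplicative (ZMod 2) := MonoidHom.mk' (fun e => Multiplicative.ofAdd (ad e))
  fun a b => by rw [ad_mul]; rfl

variable (K) in
/-- **Rédei's matrix** of a quadratic field: the entry in row `q` and column `p` is the Hilbert
symbol `(d, p)_q`, as an element of `ℤ / 2`. -/
def redeiMatrix : Matrix (Ram K) (Ram K) (ZMod 2) := fun q p =>
  ad (hilbAt (q.toPrime K) (discr K : ℚ) ((p : ℕ) : ℚ))

variable (h2 : Module.finrank ℚ K = 2)

include h2 in
theorem genus_ramI (p q : Ram K) : ad (genus (ramI p) q) = redeiMatrix K q p := by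
  rw [genus, absNorm_ramI h2, redeiMatrix]

/-- the ideal attached to `e` -/
def idl (e : Ram K → ZMod 2) : (Ideal (𝓞 K))⁰ := ∏ p : Ram K, ramI p ^ (e p).val

theorem nu_idl (e : Ram K → ZMod 2) : nu (idl e) = phi h2 (Multiplicative.ofAdd e) := by
  rw [idl, map_prod, phi_apply]
  exact Finset.prod_congr rfl fun p _ => map_pow _ _ _

/-- `genus` as a homomorphism -/
def genusH : (Ideal (𝓞 K))⁰ →* (Ram K → ℤˣ) where
  toFun := genus
  map_one' := by
    have h := genus_mul (1 : (Ideal (𝓞 K))⁰) 1
    rw [one_mul, mul_self_eq_one] at h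
    exact h
  map_mul' := genus_mul

include h2 in
theorem ad_genus_idl (e : Ram K → ZMod 2) (q : Ram K) :
    ad (genus (idl e) q) = (redeiMatrix K).mulVec e q := by
  have h1 : ∀ I : (Ideal (𝓞 K))⁰, Multiplicative.ofAdd (ad (genus I q)) =
      (adH.comp ((Pi.evalMonoidHom _ q).comp genusH)) I := fun I => rfl
  apply Multiplicative.ofAdd.injective
  rw [h1, idl, map_prod, Matrix.mulVec, dotProduct, ofAdd_sum]
  refine Finset.prod_congr rfl fun p _ => ?_
  rw [map_pow, ← h1, genus_ramI h2]
  apply Multiplicative.toAdd.injective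
  rw [toAdd_pow, toAdd_ofAdd, toAdd_ofAdd, nsmul_eq_mul, ZMod.natCast_val, ZMod.cast_id', id,
    mul_comm]

include h2 in
/-- The class of the product of ramified primes with exponents `e` is a square if and only if `e` is
in the kernel of Rédei's matrix. -/
theorem isSquare_phi_iff (e : Ram K → ZMod 2) :
    IsSquare (phi h2 (Multiplicative.ofAdd e)) ↔ (redeiMatrix K).mulVec e = 0 := by
  rw [← nu_idl, ← genus_eq_one_iff h2]
  constructor
  · intro h
    funext q
    rw [← ad_genus_idl h2, h, Pi.one_apply, Pi.zero_apply]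
    rfl
  · intro h
    funext q
    rw [Pi.one_apply, ← ad_eq_zero_iff, ad_genus_idl h2, h, Pi.zero_apply]

/-- the kernel of the matrix, as a subgroup -/
def kerR (K : Type) [Field K] [NumberField K] : Subgroup (Multiplicative (Ram K → ZMod 2)) :=
  ((redeiMatrix K).mulVecLin.toAddMonoidHom.toMultiplicative).ker

theorem mem_kerR {e : Multiplicative (Ram K → ZMod 2)} :
    e ∈ kerR K ↔ (redeiMatrix K).mulVec e.toAdd = 0 := Iff.rfl

include h2 in
/-- **Rédei's theorem**, first form: the number of the narrow classes `c` with `c² = 1` which are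
squares is half the number of the elements of the kernel of Rédei's matrix. -/
theorem card_kerR : Nat.card {c : NarrowClassGroup K // c ^ 2 = 1 ∧ IsSquare c} * 2 =
    Nat.card (kerR K) := by
  have hle : (phi h2).ker ≤ kerR K := by
    intro e he
    rw [mem_kerR, ← isSquare_phi_iff h2]
    rw [MonoidHom.mem_ker] at he
    change IsSquare (phi h2 e)
    rw [he]
    exact IsSquare.one
  have h1 := Subgroup.relIndex_mul_relIndex ⊥ (phi h2).ker (kerR K) bot_le hle
  rw [Subgroup.relIndex_bot_left, Subgroup.relIndex_bot_left, Subgroup.relIndex_ker,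
    card_ker_phi h2] at h1
  rw [← h1, mul_comm]
  congr 1
  refine Nat.card_congr (Equiv.subtypeEquivRight fun c => ?_)
  constructor
  · rintro ⟨h3, h4⟩
    have h5 : c ∈ (phi h2).range := by
      rw [range_phi]
      exact h3
    obtain ⟨e, rfl⟩ := h5
    exact ⟨e, mem_kerR.mpr ((isSquare_phi_iff h2 e.toAdd).mp h4), rfl⟩
  · rintro ⟨e, he, rfl⟩
    refine ⟨?_, (isSquare_phi_iff h2 e.toAdd).mpr (mem_kerR.mp he)⟩
    have h5 : phi h2 e ∈ (phi h2).range := ⟨e, rfl⟩
    rw [range_phi] at h5
    exact h5

/-- the number of elements of the kernel -/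
theorem card_kerR_mul : Nat.card (kerR K) * 2 ^ (redeiMatrix K).rank =
    2 ^ (discr K).natAbs.primeFactors.card := by
  have h1 : Nat.card (kerR K) = Nat.card (LinearMap.ker (redeiMatrix K).mulVecLin) := rfl
  have h3 := (redeiMatrix K).mulVecLin.finrank_range_add_finrank_ker
  rw [h1, Module.natCard_eq_pow_finrank (K := ZMod 2), Nat.card_zmod, Matrix.rank, ← pow_add,
    add_comm, h3, Module.finrank_fintype_fun_eq_card, Fintype.card_coe]

include h2 in
/-- **Rédei's theorem (1934).** Let `K` be a quadratic field with discriminant `d`, `t` the number of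
primes dividing `d` and `R` the matrix of the symbols `(d, p)_q`, `p, q ∣ d`. The number `2 ^ r₄` of
the narrow classes `c` with `c² = 1` which are squares satisfies `2 ^ r₄ · 2 · 2 ^ (rank R) = 2 ^ t`,
i.e. the 4-rank of the narrow class group is `t - 1 - rank R`. -/
theorem redei : Nat.card {c : NarrowClassGroup K // c ^ 2 = 1 ∧ IsSquare c} * 2 *
    2 ^ (redeiMatrix K).rank = 2 ^ (discr K).natAbs.primeFactors.card := by
  rw [card_kerR h2, card_kerR_mul]

/-- In a commutative group `#G[4] = #G[2] · #(G[2] ∩ G²)`. -/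
theorem card_four_torsion (G : Type*) [CommGroup G] [Finite G] :
    Nat.card {c : G // c ^ 4 = 1} =
      Nat.card {c : G // c ^ 2 = 1} * Nat.card {c : G // c ^ 2 = 1 ∧ IsSquare c} := by
  have hle : (powMonoidHom 2 : G →* G).ker ≤ (powMonoidHom 4 : G →* G).ker := by
    intro c hc
    have h : c ^ 2 = 1 := hc
    change c ^ 4 = 1
    rw [show 4 = 2 * 2 from rfl, pow_mul, h, one_pow]
  have h1 := Subgroup.relIndex_mul_relIndex ⊥ (powMonoidHom 2 : G →* G).ker
    (powMonoidHom 4 : G →* G).ker bot_le hle
  rw [Subgroup.relIndex_bot_left, Subgroup.relIndex_bot_left, Subgroup.relIndex_ker] at h1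
  have h3 : Nat.card ((powMonoidHom 4 : G →* G).ker.map (powMonoidHom 2)) =
      Nat.card {c : G // c ^ 2 = 1 ∧ IsSquare c} := by
    refine Nat.card_congr (Equiv.subtypeEquivRight fun c => ?_)
    constructor
    · rintro ⟨e, he, rfl⟩
      have he' : e ^ 4 = 1 := he
      refine ⟨?_, e, sq e⟩
      rw [powMonoidHom_apply, ← pow_mul]
      exact he'
    · rintro ⟨h, e, rfl⟩
      refine ⟨e, ?_, sq e⟩
      change e ^ 4 = 1
      rw [← sq, ← pow_mul] at h
      exact h
  rw [h3] at h1
  exact h1.symm

include h2 in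
/-- **Rédei's theorem** for the number of the narrow classes `c` with `c⁴ = 1`. -/
theorem card_four_mul : Nat.card {c : NarrowClassGroup K // c ^ 4 = 1} * 4 *
    2 ^ (redeiMatrix K).rank = 4 ^ (discr K).natAbs.primeFactors.card := by
  have h1 := redei h2
  have h3 := Ambi.card_narrow_mul_two h2
  rw [card_four_torsion, show (4 : ℕ) ^ (discr K).natAbs.primeFactors.card =
    2 ^ (discr K).natAbs.primeFactors.card * 2 ^ (discr K).natAbs.primeFactors.card by
      rw [← mul_pow]; norm_num]
  nth_rewrite 1 [← h3]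
  rw [← h1]
  ring

include h2 in
/-- The narrow class group has an element of order `4` if and only if the rank of Rédei's matrix is
less than `t - 1`. -/
theorem exists_orderOf_four_iff : (∃ c : NarrowClassGroup K, orderOf c = 4) ↔
    (redeiMatrix K).rank + 1 < (discr K).natAbs.primeFactors.card := by
  have h1 := redei h2
  have h3 : (∃ c : NarrowClassGroup K, orderOf c = 4) ↔
      1 < Nat.card {c : NarrowClassGroup K // c ^ 2 = 1 ∧ IsSquare c} := by
    rw [Finite.one_lt_card_iff_nontrivial]
    constructor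
    · rintro ⟨c, hc⟩
      have hc4 : c ^ 4 = 1 := by rw [← hc, pow_orderOf_eq_one]
      refine ⟨⟨⟨c ^ 2, by rw [← pow_mul]; exact hc4, c, sq c⟩,
        ⟨1, one_pow 2, IsSquare.one⟩, fun h => ?_⟩⟩
      have h4 : c ^ 2 = 1 := congrArg Subtype.val h
      have h5 := orderOf_dvd_of_pow_eq_one h4
      rw [hc] at h5
      omega
    · intro hn
      obtain ⟨⟨c, hc, e, rfl⟩, hne⟩ := exists_ne
        (⟨1, one_pow 2, IsSquare.one⟩ : {c : NarrowClassGroup K // c ^ 2 = 1 ∧ IsSquare c})
      have hne' : e * e ≠ 1 := fun h => hne (Subtype.ext h)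
      refine ⟨e, ?_⟩
      rw [show 4 = 2 ^ (1 + 1) from rfl]
      refine orderOf_eq_prime_pow ?_ ?_
      · rw [pow_one, sq]
        exact hne'
      · rw [pow_succ, pow_one, pow_mul, sq e]
        exact hc
  rw [h3, ← Nat.pow_lt_pow_iff_right (a := 2) (m := (discr K).natAbs.primeFactors.card) one_lt_two,
    ← h1, pow_succ]
  have h5 : 0 < 2 * 2 ^ (redeiMatrix K).rank := by positivity
  generalize Nat.card {c : NarrowClassGroup K // c ^ 2 = 1 ∧ IsSquare c} = x at *
  have h6 : x * 2 * 2 ^ (redeiMatrix K).rank = x * (2 * 2 ^ (redeiMatrix K).rank) := by ring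
  have h7 : 2 ^ (redeiMatrix K).rank * 2 = 1 * (2 * 2 ^ (redeiMatrix K).rank) := by ring
  rw [h6, h7]
  exact (Nat.mul_lt_mul_right h5).symm

end Fermat.Agent.Cor.PGT
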