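import Fermat.Agent.Corollaries.PGT.Char

/-!
# Squares in the class group of a quadratic field
-/

set_option autoImplicit false

noncomputable section

namespace Fermat.Agent.Cor.PGT

open NumberField
open Fermat.Agent.Cor.Diff (totPos NarrowClassGroup nmk nmk_surjective ncl0 toClass toClass_nmk
  toClass_surjective ker_toClass_le mk_toPrincipalIdeal)
open Fermat.Agent.Cor.Hilb
open scoped nonZeroDivisors

variable {K : Type} [Field K] [NumberField K]

theorem toClass_nu (A : (Ideal (𝓞 K))⁰) : toClass K (nu A) = ClassGroup.mk0 A := by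
  change toClass K (nmk K (FractionalIdeal.mk0 K A)) = _
  rw [toClass_nmk, ClassGroup.mk_mk0]

/-- **Squares in the class group** of a quadratic field: the class of `𝔞` is a square if and only if
`N𝔞` or `-N𝔞` is the norm of an element of the field. -/
theorem isSquare_mk0_iff (h2 : Module.finrank ℚ K = 2) (A : (Ideal (𝓞 K))⁰) :
    IsSquare (ClassGroup.mk0 A) ↔
      ∃ x : K, |Algebra.norm ℚ x| = (Ideal.absNorm (A : Ideal (𝓞 K)) : ℚ) := by
  have := isGalois_of_two h2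
  obtain ⟨σ, hσ⟩ := exists_conj h2
  constructor
  · rintro ⟨c, hc⟩
    obtain ⟨d, rfl⟩ := toClass_surjective c
    have h1 : nu A * (d * d)⁻¹ ∈ (toClass K).ker := by
      rw [MonoidHom.mem_ker, map_mul, map_inv, map_mul, toClass_nu, hc]
      exact mul_inv_cancel _
    obtain ⟨y, hy⟩ := ker_toClass_le h1
    obtain ⟨I, rfl⟩ := nmk_surjective d
    have h3 : nmk K (FractionalIdeal.mk0 K A * (toPrincipalIdeal (𝓞 K) K y * (I * I))⁻¹) = 1 := by
      rw [map_mul, map_inv, map_mul, map_mul]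
      change nu A * (ncl0 y * _)⁻¹ = 1
      rw [hy, inv_mul_cancel_right]
      exact mul_inv_cancel _
    obtain ⟨x, -, h4⟩ := (Fermat.Agent.Cor.Diff.nmk_eq_one_iff _).mp h3
    have h5 : FractionalIdeal.mk0 K A = toPrincipalIdeal (𝓞 K) K x *
        (toPrincipalIdeal (𝓞 K) K y * (I * I)) := by
      rw [h4, inv_mul_cancel_right]
    have h6 := congrArg (fun J : (FractionalIdeal (𝓞 K)⁰ K)ˣ => FractionalIdeal.absNorm
      (J : FractionalIdeal (𝓞 K)⁰ K)) h5
    simp only [Units.val_mul, map_mul, FractionalIdeal.coe_mk0, FractionalIdeal.coeIdeal_absNorm,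
      coe_toPrincipalIdeal, FractionalIdeal.absNorm_span_singleton] at h6
    refine ⟨(x : K) * y * algebraMap ℚ K
      (FractionalIdeal.absNorm (I : FractionalIdeal (𝓞 K)⁰ K)), ?_⟩
    rw [map_mul, map_mul, Algebra.norm_algebraMap, h2, h6, abs_mul, abs_mul, abs_pow,
      abs_of_nonneg (FractionalIdeal.absNorm_nonneg _)]
    ring
  · rintro ⟨x, hx⟩
    have hA0 : (A : Ideal (𝓞 K)) ≠ ⊥ := nonZeroDivisors.ne_zero A.2
    have ha0 : Ideal.absNorm (A : Ideal (𝓞 K)) ≠ 0 := fun h =>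
      hA0 (Ideal.absNorm_eq_zero_iff.mp h)
    have hx0 : x ≠ 0 := by
      rintro rfl
      rw [Algebra.norm_zero, abs_zero] at hx
      exact ha0 (Nat.cast_eq_zero.mp hx.symm)
    obtain ⟨k, hk0, hk⟩ := ((IsFractionRing.isAlgebraic_iff ℤ ℚ K).mpr
      (Algebra.IsAlgebraic.isAlgebraic (R := ℚ) x)).exists_integral_multiple
    obtain ⟨z, hz⟩ : ∃ z : 𝓞 K, (z : K) = algebraMap ℚ K k * x := ⟨⟨k • x, hk⟩, by
      change k • x = _
      rw [zsmul_eq_mul, map_intCast]⟩
    have hz0 : z ≠ 0 := by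
      rintro rfl
      have h7 : algebraMap ℚ K k * x = 0 := by rw [← hz]; exact map_zero (algebraMap (𝓞 K) K)
      rcases mul_eq_zero.mp h7 with h | h
      · exact hk0 (Int.cast_eq_zero.mp ((map_eq_zero _).mp h))
      · exact hx0 h
    have h1 : IsSquare (nu (A * ⟨_, span_ne_bot' hz0⟩)) := by
      refine isSquare_nu_of_norm h2 hσ _ (algebraMap ℚ K (k * Ideal.absNorm (A : Ideal (𝓞 K)))) ?_
      rw [Algebra.norm_algebraMap, h2, Submonoid.coe_mul, map_mul, Ideal.absNorm_span_singleton,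
        Nat.cast_mul, Nat.cast_natAbs, Int.cast_abs, Algebra.coe_norm_int, hz, map_mul,
        Algebra.norm_algebraMap, h2, abs_mul, hx, abs_pow, sq_abs]
      ring
    obtain ⟨d, hd⟩ := h1
    refine ⟨toClass K d, ?_⟩
    have h8 : ClassGroup.mk0 (⟨_, span_ne_bot' hz0⟩ : (Ideal (𝓞 K))⁰) = 1 :=
      (ClassGroup.mk0_eq_one_iff _).mpr ⟨z, rfl⟩
    rw [← map_mul, ← hd, toClass_nu, map_mul, h8, mul_one]

/-- The same in terms of the genus characters. -/
theorem isSquare_mk0_iff_char (h2 : Module.finrank ℚ K = 2) {α : K} {m : ℤ}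
    (hα : α ^ 2 = (m : K)) (hα' : α ∉ (algebraMap ℚ K).range) (hm : m < 0)
    (A : (Ideal (𝓞 K))⁰) :
    IsSquare (ClassGroup.mk0 A) ↔ ∀ (p : ℕ) [Fact p.Prime], (p : ℤ) ∣ 2 * m →
      hilb (m : ℚ_[p]) (Ideal.absNorm (A : Ideal (𝓞 K)) : ℚ_[p]) = 1 := by
  have := isGalois_of_two h2
  obtain ⟨σ, hσ⟩ := exists_conj h2
  rw [← principal_genus_char h2 hα hα' A, isSquare_nu_iff h2 hσ, isSquare_mk0_iff h2]
  refine exists_congr fun x => ?_
  have h3 : 0 ≤ Algebra.norm ℚ x := by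
    obtain ⟨u, v, huv⟩ := (exists_norm_iff_rat h2 (m := (m : ℚ)) (by rw [hα]; simp) hα'
      (Algebra.norm ℚ x)).mp ⟨_, rfl⟩
    rw [← huv]
    have h4 : (m : ℚ) < 0 := by exact_mod_cast hm
    nlinarith [sq_nonneg u, sq_nonneg v, mul_nonneg (neg_nonneg.mpr h4.le) (sq_nonneg v)]
  rw [abs_of_nonneg h3]

end Fermat.Agent.Cor.PGT
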